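/-
S33 study support (helper57): valuation estimates for the roots of a Hasse derivative
(the polynomial step of Ax's lemma).  Mathlib only.

`K` an algebraically closed field of characteristic zero with a valuation `v`.  If all the roots
`z` of `f = ∏_{z ∈ S} (X - z)` satisfy `v (z - α) ≤ D`, then the `q`-th Hasse derivative of `f`
(`q < |S|`) has a root `β` with `v (β - α) ^ (|S| - q) * v (|S| choose q) ≤ D ^ (|S| - q)`.
-/
import Mathlib

set_option autoImplicit false

open Polynomial

namespace Fermat.Agent.S33x.Ax.ValPoly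

variable {K : Type*} [Field K] {Γ₀ : Type*} [LinearOrderedCommGroupWithZero Γ₀]
  (v : Valuation K Γ₀)

/-- the coefficients of a monic polynomial whose roots have valuation `≤ D`. -/
theorem coeff_prod_le (S : Finset K) (r : K → K) (D : Γ₀) (hr : ∀ z ∈ S, v (r z) ≤ D) :
    ∀ j, j ≤ S.card → v ((∏ z ∈ S, (X - C (r z))).coeff j) ≤ D ^ (S.card - j) := by
  classical
  induction S using Finset.induction_on with
  | empty =>
    intro j hj
    simp only [Finset.card_empty, Nat.le_zero] at hj
    subst hj
    simp
  | insert a S ha ih =>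
    intro j hj
    have ihS := ih (fun z hz => hr z (Finset.mem_insert_of_mem hz))
    have hra : v (r a) ≤ D := hr a (Finset.mem_insert_self a S)
    rw [Finset.prod_insert ha, Finset.card_insert_of_notMem ha] at *
    set G := ∏ z ∈ S, (X - C (r z)) with hG
    have hdeg : G.natDegree = S.card := by
      rw [hG]; exact natDegree_finsetProd_X_sub_C_eq_card S r
    rcases j with _ | j
    · -- constant coefficient
      have h0 : ((X - C (r a)) * G).coeff 0 = - (r a * G.coeff 0) := by
        rw [sub_mul, coeff_sub, coeff_X_mul_zero, coeff_C_mul, zero_sub]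
      rw [h0, Valuation.map_neg, map_mul, Nat.sub_zero, pow_succ']
      have := ihS 0 (Nat.zero_le _)
      rw [Nat.sub_zero] at this
      exact mul_le_mul' hra this
    · have h1 : ((X - C (r a)) * G).coeff (j + 1) = G.coeff j - r a * G.coeff (j + 1) := by
        rw [sub_mul, coeff_sub, coeff_X_mul, coeff_C_mul]
      have hjS : j ≤ S.card := by omega
      rw [h1, Nat.add_sub_add_right]
      refine le_trans (Valuation.map_sub v _ _) (max_le (ihS j hjS) ?_)
      rcases Nat.lt_or_ge j S.card with hlt | hge
      · have := ihS (j + 1) hlt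
        rw [map_mul]
        calc v (r a) * v (G.coeff (j + 1)) ≤ D * D ^ (S.card - (j + 1)) := mul_le_mul' hra this
          _ = D ^ (S.card - j) := by
            rw [← pow_succ']
            congr 1
            omega
      · have : G.coeff (j + 1) = 0 := by
          apply coeff_eq_zero_of_natDegree_lt
          omega
        rw [this, mul_zero, map_zero]
        exact zero_le

/-- `taylor α` of a split monic polynomial. -/
theorem taylor_prod_X_sub_C (S : Finset K) (α : K) :
    taylor α (∏ z ∈ S, (X - C z)) = ∏ z ∈ S, (X - C (z - α)) := by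
  have h1 : taylor α (∏ z ∈ S, (X - C z)) = taylorAlgHom α (∏ z ∈ S, (X - C z)) := rfl
  rw [h1, map_prod]
  refine Finset.prod_congr rfl (fun z _ => ?_)
  have h2 : taylorAlgHom α (X - C z) = taylor α (X - C z) := rfl
  rw [h2, map_sub, taylor_X, taylor_C, C_sub]
  ring

variable [IsAlgClosed K] [CharZero K]

/-- **Root of a Hasse derivative close to `α`.** -/
theorem exists_root_hasseDeriv (S : Finset K) (α : K) (D : Γ₀) (q : ℕ) (hq : q < S.card)
    (hS : ∀ z ∈ S, v (z - α) ≤ D) :
    ∃ β : K, (hasseDeriv q (∏ z ∈ S, (X - C z))).eval β = 0 ∧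
      v (β - α) ^ (S.card - q) * v ((S.card.choose q : ℕ) : K) ≤ D ^ (S.card - q) := by
  classical
  set n := S.card with hn
  set f : K[X] := ∏ z ∈ S, (X - C z) with hf
  have hfdeg : f.natDegree = n := natDegree_finsetProd_X_sub_C_eq_card S _
  have hfmonic : f.Monic := monic_prod_of_monic _ _ (fun z _ => monic_X_sub_C z)
  set h : K[X] := hasseDeriv q f with hh
  have hhdeg : h.natDegree = n - q := by rw [hh, natDegree_hasseDeriv, hfdeg]
  have hhlc : h.leadingCoeff = ((n.choose q : ℕ) : K) := by
    rw [leadingCoeff, hhdeg, hh, hasseDeriv_coeff, Nat.sub_add_cancel hq.le]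
    have : f.coeff n = 1 := by rw [← hfdeg]; exact hfmonic.coeff_natDegree
    rw [this, mul_one]
  set T : K[X] := taylor α h with hT
  have hTdeg : T.natDegree = n - q := by rw [hT, natDegree_taylor, hhdeg]
  have hTlc : T.leadingCoeff = ((n.choose q : ℕ) : K) := by rw [hT, leadingCoeff_taylor, hhlc]
  have hT0 : T.coeff 0 = (∏ z ∈ S, (X - C (z - α))).coeff q := by
    rw [hT, taylor_coeff_zero, hh, ← taylor_coeff, hf, taylor_prod_X_sub_C]
  have hT0v : v (T.coeff 0) ≤ D ^ (n - q) := by
    rw [hT0]
    exact coeff_prod_le v S (fun z => z - α) D hS q hq.le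
  have hsplit : T.Splits := IsAlgClosed.splits T
  have hcard : T.roots.card = n - q := by rw [← hsplit.natDegree_eq_card_roots, hTdeg]
  have hne : T.roots.toFinset.Nonempty := by
    rw [Finset.nonempty_iff_ne_empty, Ne, Multiset.toFinset_eq_empty]
    intro h0
    rw [h0, Multiset.card_zero] at hcard
    omega
  obtain ⟨r₀, hr₀, hmin⟩ := Finset.exists_min_image T.roots.toFinset (fun r => v r) hne
  have hr₀' : r₀ ∈ T.roots := Multiset.mem_toFinset.mp hr₀
  have hpow : v r₀ ^ (n - q) ≤ v T.roots.prod := by
    rw [map_multiset_prod, ← hcard]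
    have := Multiset.pow_card_le_prod (s := T.roots.map v) (a := v r₀) ?_
    · simpa using this
    · intro x hx
      obtain ⟨r, hr, rfl⟩ := Multiset.mem_map.mp hx
      exact hmin r (Multiset.mem_toFinset.mpr hr)
  have hprod : v (T.coeff 0) = v ((n.choose q : ℕ) : K) * v T.roots.prod := by
    rw [hsplit.coeff_zero_eq_leadingCoeff_mul_prod_roots, hTlc, map_mul, map_mul, map_pow,
      Valuation.map_neg, map_one, one_pow, one_mul]
  refine ⟨r₀ + α, ?_, ?_⟩
  · have := (mem_roots'.mp hr₀').2
    rw [IsRoot.def, hT, taylor_eval] at this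
    exact this
  · rw [add_sub_cancel_right]
    calc v r₀ ^ (n - q) * v ((n.choose q : ℕ) : K)
        ≤ v T.roots.prod * v ((n.choose q : ℕ) : K) := mul_le_mul_left hpow _
      _ = v (T.coeff 0) := by rw [hprod, mul_comm]
      _ ≤ D ^ (n - q) := hT0v

end Fermat.Agent.S33x.Ax.ValPoly
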