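/-
S33 study support (helper57): **Ax's lemma** for `(ℚ̄, P, H)`.

`P` a valuation subring of `Qbar = AlgebraicClosure ℚ` over an odd prime `p`, `H` a subgroup of
`Gal(ℚ̄/ℚ)` preserving `P` (for instance a subgroup of the inertia group of `P`).  If
`σ α - α ∈ δ P` for all `σ ∈ H` then there is an `H`-fixed `β` with `p (α - β) ∈ δ P`.

Proof (Ax 1970): induction on the size `n` of the `H`-orbit of `α`; a root of a suitable Hasse
derivative of `∏_{z ∈ orbit} (X - z)` is close to `α` and has a smaller orbit; there is a loss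
only when `n` is a power of `p`, and the total loss is less than the valuation of `p`.
-/
import Mathlib
import Fermat.Prelude.Def_FLTPrelim_Ramification
import Fermat.Agent.S33x.Ax.ValPoly

set_option autoImplicit false

open Polynomial

namespace Fermat.Agent.S33x.Ax

local notation "Qbar" => AlgebraicClosure ℚ
local notation "Γℚ" => (AlgebraicClosure ℚ ≃ₐ[ℚ] AlgebraicClosure ℚ)

/-- `H` preserves `P`. -/
def Preserves (P : ValuationSubring Qbar) (H : Subgroup Γℚ) : Prop :=
  ∀ σ ∈ H, ∀ a ∈ P, σ a ∈ P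

/-- some positive power of `σ` fixes `x`. -/
theorem exists_pow_apply_eq (σ : Γℚ) (x : Qbar) : ∃ m : ℕ, 0 < m ∧ (σ ^ m) x = x := by
  classical
  have hfin : ((minpoly ℚ x).rootSet Qbar).Finite := rootSet_finite _ _
  have hQalg : Algebra.IsAlgebraic ℚ Qbar := AlgebraicClosure.isAlgebraic ℚ
  have hint : IsIntegral ℚ x := (Algebra.IsAlgebraic.isAlgebraic x).isIntegral
  have hmem : ∀ k : ℕ, (σ ^ k) x ∈ (minpoly ℚ x).rootSet Qbar := by
    intro k
    rw [mem_rootSet]
    refine ⟨minpoly.ne_zero hint, ?_⟩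
    have : aeval ((σ ^ k) x) (minpoly ℚ x) = (σ ^ k) (aeval x (minpoly ℚ x)) := by
      have := aeval_algHom_apply ((σ ^ k : Γℚ) : Qbar →ₐ[ℚ] Qbar) x (minpoly ℚ x)
      simpa using this
    rw [this, minpoly.aeval, map_zero]
  have hninj : ¬ Function.Injective (fun k : ℕ => (σ ^ k) x) := by
    intro hinj
    exact Set.infinite_of_injective_forall_mem hinj hmem hfin
  rw [Function.Injective] at hninj
  push Not at hninj
  obtain ⟨i, j, hij, hne⟩ := hninj
  have key : ∀ i j : ℕ, i < j → (σ ^ i) x = (σ ^ j) x → ∃ m : ℕ, 0 < m ∧ (σ ^ m) x = x := by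
    intro i j hlt h
    refine ⟨j - i, Nat.sub_pos_of_lt hlt, ?_⟩
    have hj : σ ^ j = σ ^ i * σ ^ (j - i) := by
      rw [← pow_add]
      congr 1
      omega
    rw [hj, AlgEquiv.mul_apply] at h
    exact ((σ ^ i).injective h).symm
  rcases Nat.lt_or_gt_of_ne hne with h | h
  · exact key i j h hij
  · exact key j i h hij.symm

section Invariance

variable {P : ValuationSubring Qbar} {H : Subgroup Γℚ} (hH : Preserves P H)
include hH

theorem map_mem_iff {σ : Γℚ} (hσ : σ ∈ H) (a : Qbar) : σ a ∈ P ↔ a ∈ P := by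
  refine ⟨fun h => ?_, hH σ hσ a⟩
  have := hH σ⁻¹ (H.inv_mem hσ) _ h
  rwa [show σ⁻¹ (σ a) = a from σ.symm_apply_apply a] at this

theorem val_map_le_iff {σ : Γℚ} (hσ : σ ∈ H) (a b : Qbar) :
    P.valuation (σ a) ≤ P.valuation (σ b) ↔ P.valuation a ≤ P.valuation b := by
  by_cases hb : b = 0
  · subst hb
    simp
  · have hσb : σ b ≠ 0 := by simpa using hb
    have h1 : P.valuation a ≤ P.valuation b ↔ a / b ∈ P := by
      rw [← P.valuation_le_one_iff, map_div₀,
        div_le_one₀ (zero_lt_iff.mpr ((Valuation.ne_zero_iff _).mpr hb))]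
    have h2 : P.valuation (σ a) ≤ P.valuation (σ b) ↔ σ a / σ b ∈ P := by
      rw [← P.valuation_le_one_iff, map_div₀,
        div_le_one₀ (zero_lt_iff.mpr ((Valuation.ne_zero_iff _).mpr hσb))]
    rw [h1, h2, ← map_div₀, map_mem_iff hH hσ]

theorem val_map_lt_iff {σ : Γℚ} (hσ : σ ∈ H) (a b : Qbar) :
    P.valuation (σ a) < P.valuation (σ b) ↔ P.valuation a < P.valuation b := by
  rw [← not_le, ← not_le, val_map_le_iff hH hσ]

/-- elements of `H` preserve the valuation. -/
theorem val_map {σ : Γℚ} (hσ : σ ∈ H) (x : Qbar) : P.valuation (σ x) = P.valuation x := by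
  obtain ⟨m, hm, hmx⟩ := exists_pow_apply_eq σ x
  have hpow : ∀ k : ℕ, σ ^ k ∈ H := fun k => H.pow_mem hσ k
  rcases lt_trichotomy (P.valuation (σ x)) (P.valuation x) with h | h | h
  · exfalso
    have : ∀ k : ℕ, 0 < k → P.valuation ((σ ^ k) x) < P.valuation x := by
      intro k hk
      induction k with
      | zero => omega
      | succ k ih =>
        rcases Nat.eq_zero_or_pos k with rfl | hk'
        · simpa using h
        · have h1 := (val_map_lt_iff hH hσ _ _).mpr (ih hk')
          have h2 : (σ ^ (k + 1)) x = σ ((σ ^ k) x) := by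
            rw [pow_succ', AlgEquiv.mul_apply]
          rw [h2]
          exact lt_trans h1 h
    have := this m hm
    rw [hmx] at this
    exact lt_irrefl _ this
  · exact h
  · exfalso
    have : ∀ k : ℕ, 0 < k → P.valuation x < P.valuation ((σ ^ k) x) := by
      intro k hk
      induction k with
      | zero => omega
      | succ k ih =>
        rcases Nat.eq_zero_or_pos k with rfl | hk'
        · simpa using h
        · have h1 := (val_map_lt_iff hH hσ _ _).mpr (ih hk')
          have h2 : (σ ^ (k + 1)) x = σ ((σ ^ k) x) := by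
            rw [pow_succ', AlgEquiv.mul_apply]
          rw [h2]
          exact lt_trans h h1
    have := this m hm
    rw [hmx] at this
    exact lt_irrefl _ this

end Invariance

/-! ### Orbits -/

section Orbit

variable (H : Subgroup Γℚ)

/-- the `H`-orbit of `α`. -/
def orbSet (α : Qbar) : Set Qbar := {z | ∃ σ ∈ H, σ α = z}

theorem orbSet_finite (α : Qbar) : (orbSet H α).Finite := by
  have hQalg : Algebra.IsAlgebraic ℚ Qbar := AlgebraicClosure.isAlgebraic ℚ
  have hint : IsIntegral ℚ α := (Algebra.IsAlgebraic.isAlgebraic α).isIntegral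
  refine Set.Finite.subset (rootSet_finite (minpoly ℚ α) Qbar) ?_
  rintro z ⟨σ, -, rfl⟩
  rw [mem_rootSet]
  refine ⟨minpoly.ne_zero hint, ?_⟩
  have : aeval (σ α) (minpoly ℚ α) = σ (aeval α (minpoly ℚ α)) := by
    have := aeval_algHom_apply ((σ : Γℚ) : Qbar →ₐ[ℚ] Qbar) α (minpoly ℚ α)
    simpa using this
  rw [this, minpoly.aeval, map_zero]

/-- the `H`-orbit of `α` as a finset. -/
noncomputable def orbFin (α : Qbar) : Finset Qbar := (orbSet_finite H α).toFinset

variable {H}

theorem mem_orbFin {α z : Qbar} : z ∈ orbFin H α ↔ ∃ σ ∈ H, σ α = z := by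
  rw [orbFin, Set.Finite.mem_toFinset]
  rfl

theorem self_mem_orbFin (α : Qbar) : α ∈ orbFin H α :=
  mem_orbFin.mpr ⟨1, H.one_mem, rfl⟩

theorem map_mem_orbFin {α z : Qbar} {σ : Γℚ} (hσ : σ ∈ H) (hz : z ∈ orbFin H α) :
    σ z ∈ orbFin H α := by
  obtain ⟨τ, hτ, rfl⟩ := mem_orbFin.mp hz
  exact mem_orbFin.mpr ⟨σ * τ, H.mul_mem hσ hτ, rfl⟩

theorem fixed_of_card_orbFin_eq_one {α : Qbar} (h : (orbFin H α).card = 1) :
    ∀ σ ∈ H, σ α = α := by
  intro σ hσ
  obtain ⟨a, ha⟩ := Finset.card_eq_one.mp h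
  have h1 := self_mem_orbFin (H := H) α
  have h2 := map_mem_orbFin hσ h1
  rw [ha, Finset.mem_singleton] at h1 h2
  rw [h2, h1]

/-- a split polynomial with stable root set is invariant. -/
theorem map_prod_X_sub_C {S : Finset Qbar} {σ : Γℚ} (hS : ∀ z ∈ S, σ z ∈ S) :
    (∏ z ∈ S, (X - C z)).map (σ : Qbar →+* Qbar) = ∏ z ∈ S, (X - C z) := by
  classical
  have himg : S.image σ = S := by
    apply Finset.eq_of_subset_of_card_le
    · intro z hz
      obtain ⟨w, hw, rfl⟩ := Finset.mem_image.mp hz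
      exact hS w hw
    · rw [Finset.card_image_of_injective _ σ.injective]
  rw [Polynomial.map_prod]
  conv_rhs => rw [← himg]
  rw [Finset.prod_image (fun a _ b _ h => σ.injective h)]
  refine Finset.prod_congr rfl (fun z _ => ?_)
  simp

theorem hasseDeriv_map_eq {f : Qbar[X]} {σ : Γℚ} (hf : f.map (σ : Qbar →+* Qbar) = f) (q : ℕ) :
    (hasseDeriv q f).map (σ : Qbar →+* Qbar) = hasseDeriv q f := by
  ext j
  have hc : ∀ i, σ (f.coeff i) = f.coeff i := fun i => by
    have := congrArg (fun g => g.coeff i) hf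
    simpa [coeff_map] using this
  rw [coeff_map, hasseDeriv_coeff, map_mul, map_natCast]
  simp [hc]

theorem eval_map_root {g : Qbar[X]} {σ : Γℚ} (hg : g.map (σ : Qbar →+* Qbar) = g) {β : Qbar}
    (hβ : g.eval β = 0) : g.eval (σ β) = 0 := by
  have h1 : (g.map (σ : Qbar →+* Qbar)).eval ((σ : Qbar →+* Qbar) β) = (σ : Qbar →+* Qbar) (g.eval β) := by
    rw [eval_map, eval₂_at_apply]
  rw [hg, hβ, map_zero] at h1
  simpa using h1

theorem card_orbFin_le_of_root {g : Qbar[X]} (hg0 : g ≠ 0)
    (hg : ∀ σ ∈ H, g.map (σ : Qbar →+* Qbar) = g) {β : Qbar} (hβ : g.eval β = 0) :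
    (orbFin H β).card ≤ g.natDegree := by
  classical
  have hsub : orbFin H β ⊆ g.roots.toFinset := by
    intro z hz
    obtain ⟨σ, hσ, rfl⟩ := mem_orbFin.mp hz
    rw [Multiset.mem_toFinset, mem_roots hg0]
    exact eval_map_root (hg σ hσ) hβ
  calc (orbFin H β).card ≤ g.roots.toFinset.card := Finset.card_le_card hsub
    _ ≤ Multiset.card g.roots := Multiset.toFinset_card_le _
    _ ≤ g.natDegree := card_roots' g

end Orbit

/-! ### The loss budget -/

section Budget

theorem exists_root_two_pow (p k : ℕ) : ∃ z : Qbar, z ^ (2 ^ k) = (p : Qbar) :=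
  IsAlgClosed.exists_pow_nat_eq _ (pow_pos two_pos k)

/-- a `2 ^ k`-th root of `p`. -/
noncomputable def varpi (p k : ℕ) : Qbar := Classical.choose (exists_root_two_pow p k)

theorem varpi_pow (p k : ℕ) : varpi p k ^ (2 ^ k) = (p : Qbar) :=
  Classical.choose_spec (exists_root_two_pow p k)

variable (P : ValuationSubring Qbar) (p : ℕ)

/-- the valuation of a `2 ^ k`-th root of `p`. -/
noncomputable def gam (k : ℕ) : P.ValueGroup := P.valuation (varpi p k)

theorem gam_pow (k : ℕ) : gam P p k ^ (2 ^ k) = P.valuation (p : Qbar) := by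
  rw [gam, ← map_pow, varpi_pow]

/-- the loss budget after the levels `1, …, k`. -/
noncomputable def budget : ℕ → P.ValueGroup
  | 0 => 1
  | k + 1 => budget k * gam P p (k + 1)

theorem budget_zero : budget P p 0 = 1 := rfl

theorem budget_succ (k : ℕ) : budget P p (k + 1) = budget P p k * gam P p (k + 1) := rfl

variable {P p}

theorem val_p_lt_one (hP : P.LiesOverPrime p) : P.valuation (p : Qbar) < 1 := by
  have h : (p : Qbar) ∈ P.nonunits := hP
  rwa [ValuationSubring.mem_nonunits_iff] at h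

theorem val_p_ne_zero (hp : p.Prime) : P.valuation (p : Qbar) ≠ 0 := by
  rw [Valuation.ne_zero_iff]
  exact Nat.cast_ne_zero.mpr hp.ne_zero

theorem gam_le_one (hP : P.LiesOverPrime p) (k : ℕ) : gam P p k ≤ 1 := by
  have h := gam_pow P p k
  have h2 : gam P p k ^ (2 ^ k) ≤ 1 := by rw [h]; exact (val_p_lt_one hP).le
  exact (pow_le_one_iff_of_nonneg zero_le (pow_pos two_pos k).ne').mp h2

theorem gam_ne_zero (hp : p.Prime) (k : ℕ) : gam P p k ≠ 0 := by
  intro h0
  have h := gam_pow P p k
  rw [h0, zero_pow (pow_pos two_pos k).ne'] at h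
  exact val_p_ne_zero hp h.symm

theorem budget_le_one (hP : P.LiesOverPrime p) (k : ℕ) : budget P p k ≤ 1 := by
  induction k with
  | zero => exact le_of_eq (budget_zero P p)
  | succ k ih =>
    rw [budget_succ]
    calc budget P p k * gam P p (k + 1) ≤ 1 * 1 := mul_le_mul' ih (gam_le_one hP _)
      _ = 1 := one_mul 1

theorem budget_succ_le_gam (hP : P.LiesOverPrime p) (k : ℕ) :
    budget P p (k + 1) ≤ gam P p (k + 1) := by
  rw [budget_succ]
  calc budget P p k * gam P p (k + 1) ≤ 1 * gam P p (k + 1) :=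
        mul_le_mul' (budget_le_one hP k) le_rfl
    _ = gam P p (k + 1) := one_mul _

theorem budget_antitone (hP : P.LiesOverPrime p) {k l : ℕ} (hkl : k ≤ l) :
    budget P p l ≤ budget P p k := by
  induction l with
  | zero =>
    have : k = 0 := by omega
    subst this
    exact le_rfl
  | succ l ih =>
    rcases Nat.lt_or_ge k (l + 1) with h | h
    · have := ih (by omega)
      rw [budget_succ]
      calc budget P p l * gam P p (l + 1) ≤ budget P p k * 1 :=
            mul_le_mul' this (gam_le_one hP _)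
        _ = budget P p k := mul_one _
    · have : k = l + 1 := by omega
      subst this
      exact le_rfl

theorem budget_pow (k : ℕ) :
    budget P p k ^ (2 ^ k) = P.valuation (p : Qbar) ^ (2 ^ k - 1) := by
  induction k with
  | zero => simp [budget_zero]
  | succ k ih =>
    rw [budget_succ, mul_pow, gam_pow, pow_succ 2 k, pow_mul, ih, ← pow_mul, ← pow_succ]
    congr 1
    have : 1 ≤ 2 ^ k := Nat.one_le_two_pow
    omega

/-- the total loss is at most the valuation of `p`. -/
theorem val_p_le_budget (hP : P.LiesOverPrime p) (k : ℕ) :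
    P.valuation (p : Qbar) ≤ budget P p k := by
  have h1 : P.valuation (p : Qbar) ^ (2 ^ k) ≤ budget P p k ^ (2 ^ k) := by
    rw [budget_pow]
    exact pow_le_pow_of_le_one zero_le (val_p_lt_one hP).le (Nat.sub_le _ _)
  exact (pow_le_pow_iff_left₀ zero_le zero_le (pow_pos two_pos k).ne').mp h1

end Budget

/-! ### Binomial coefficients -/

section Binomial

variable {P : ValuationSubring Qbar} {p : ℕ} (hp : p.Prime) (hP : P.LiesOverPrime p)
include hp hP

/-- integers prime to `p` are units of `P`. -/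
theorem val_natCast_eq_one (m : ℕ) (hm : ¬ p ∣ m) : P.valuation (m : Qbar) = 1 := by
  have hcop : IsCoprime (m : ℤ) (p : ℤ) := by
    rw [Nat.isCoprime_iff_coprime]
    exact ((Nat.Prime.coprime_iff_not_dvd hp).mpr hm).symm
  obtain ⟨a, b, hab⟩ := hcop
  have hab' : (a : Qbar) * (m : Qbar) + (b : Qbar) * (p : Qbar) = 1 := by
    exact_mod_cast congrArg (Int.cast : ℤ → Qbar) hab
  have hint : ∀ c : ℤ, P.valuation (c : Qbar) ≤ 1 := fun c =>
    (P.valuation_le_one_iff _).mpr (intCast_mem P c)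
  have hm1 : P.valuation (m : Qbar) ≤ 1 := (P.valuation_le_one_iff _).mpr (natCast_mem P m)
  by_contra hne
  have hlt : P.valuation (m : Qbar) < 1 := lt_of_le_of_ne hm1 hne
  have h1 : P.valuation ((a : Qbar) * m + b * p) < 1 := by
    refine lt_of_le_of_lt (Valuation.map_add _ _ _) (max_lt ?_ ?_)
    · rw [map_mul]
      calc P.valuation (a : Qbar) * P.valuation (m : Qbar)
          ≤ 1 * P.valuation (m : Qbar) := mul_le_mul' (hint a) le_rfl
        _ < 1 := by rwa [one_mul]
    · rw [map_mul]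
      calc P.valuation (b : Qbar) * P.valuation (p : Qbar)
          ≤ 1 * P.valuation (p : Qbar) := mul_le_mul' (hint b) le_rfl
        _ < 1 := by rw [one_mul]; exact val_p_lt_one hP
  rw [hab', map_one] at h1
  exact lt_irrefl _ h1

/-- `n = p ^ e * m`, `p ∤ m`: the binomial coefficient `n choose p ^ e` is a unit. -/
theorem val_choose_eq_one (e m : ℕ) (hm : ¬ p ∣ m) :
    P.valuation (((p ^ e * m).choose (p ^ e) : ℕ) : Qbar) = 1 := by
  apply val_natCast_eq_one hp hP
  have : Fact p.Prime := ⟨hp⟩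
  have h := Choose.choose_pow_mul_pow_mul_modEq_choose_nat (p := p) (k := e) (a := m) (b := 1)
  rw [mul_one, Nat.choose_one_right] at h
  intro hdvd
  exact hm ((Nat.modEq_zero_iff_dvd.mp ((h.symm.trans (Nat.modEq_zero_iff_dvd.mpr hdvd)))))

/-- the binomial coefficient `p ^ (e + 1) choose p ^ e` has the valuation of `p`. -/
theorem val_choose_pow (e : ℕ) :
    P.valuation (((p ^ (e + 1)).choose (p ^ e) : ℕ) : Qbar) = P.valuation (p : Qbar) := by
  set c := (p ^ (e + 1)).choose (p ^ e) with hc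
  have hc0 : c ≠ 0 := (Nat.choose_pos (Nat.pow_le_pow_right hp.pos (Nat.le_succ e))).ne'
  have hfac : c.factorization p = 1 := by
    rw [hc, Nat.factorization_choose_prime_pow hp (Nat.pow_le_pow_right hp.pos (Nat.le_succ e))
      (pow_pos hp.pos e).ne', Nat.Prime.factorization_pow hp]
    simp
  have h1 : p ^ c.factorization p * (c / p ^ c.factorization p) = c :=
    Nat.ordProj_mul_ordCompl_eq_self c p
  have h2 : ¬ p ∣ c / p ^ c.factorization p := Nat.not_dvd_ordCompl hp hc0
  rw [hfac, pow_one] at h1 h2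
  have h3 : ((c : ℕ) : Qbar) = (p : Qbar) * ((c / p : ℕ) : Qbar) := by
    rw [← Nat.cast_mul, h1]
  rw [h3, map_mul, val_natCast_eq_one hp hP _ h2, mul_one]

end Binomial

/-! ### The induction -/

section Main

variable {P : ValuationSubring Qbar} {H : Subgroup Γℚ}

/-- one step: a root of a Hasse derivative of the orbit polynomial. -/
theorem exists_step (α : Qbar) (D : P.ValueGroup) (q : ℕ) (hq : q < (orbFin H α).card)
    (hα : ∀ σ ∈ H, P.valuation (σ α - α) ≤ D) :
    ∃ β₁ : Qbar, (orbFin H β₁).card ≤ (orbFin H α).card - q ∧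
      P.valuation (β₁ - α) ^ ((orbFin H α).card - q) *
        P.valuation (((orbFin H α).card.choose q : ℕ) : Qbar) ≤ D ^ ((orbFin H α).card - q) := by
  have hS : ∀ z ∈ orbFin H α, P.valuation (z - α) ≤ D := by
    intro z hz
    obtain ⟨σ, hσ, rfl⟩ := mem_orbFin.mp hz
    exact hα σ hσ
  obtain ⟨β₁, hroot, hbound⟩ :=
    ValPoly.exists_root_hasseDeriv P.valuation (orbFin H α) α D q hq hS
  refine ⟨β₁, ?_, hbound⟩
  set g := hasseDeriv q (∏ z ∈ orbFin H α, (X - C z)) with hg
  have hdeg : g.natDegree = (orbFin H α).card - q := by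
    rw [hg, natDegree_hasseDeriv, natDegree_finsetProd_X_sub_C_eq_card]
  have hg0 : g ≠ 0 := by
    intro h0
    rw [h0, natDegree_zero] at hdeg
    omega
  have hinv : ∀ σ ∈ H, g.map (σ : Qbar →+* Qbar) = g := by
    intro σ hσ
    exact hasseDeriv_map_eq (map_prod_X_sub_C (fun z hz => map_mem_orbFin hσ hz)) q
  rw [← hdeg]
  exact card_orbFin_le_of_root hg0 hinv hroot

variable (hH : Preserves P H) {p : ℕ}
include hH

/-- combining a step with the induction hypothesis. -/
theorem combine (c : P.ValueGroup) (hc0 : c ≠ 0) (k k' : ℕ)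
    (hB1 : budget P p k ≤ c) (hB2 : budget P p k ≤ budget P p k' * c) (hc1 : c ≤ 1)
    (α β₁ : Qbar) (D : P.ValueGroup) (hα : ∀ σ ∈ H, P.valuation (σ α - α) ≤ D)
    (h1 : c * P.valuation (β₁ - α) ≤ D)
    (IH : ∀ D' : P.ValueGroup, (∀ σ ∈ H, P.valuation (σ β₁ - β₁) ≤ D') →
      ∃ β : Qbar, (∀ σ ∈ H, σ β = β) ∧ budget P p k' * P.valuation (β₁ - β) ≤ D') :
    ∃ β : Qbar, (∀ σ ∈ H, σ β = β) ∧ budget P p k * P.valuation (α - β) ≤ D := by
  have hcpos : 0 < c := zero_lt_iff.mpr hc0
  have hx : P.valuation (β₁ - α) ≤ D / c := by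
    rw [le_div_iff₀ hcpos, mul_comm]
    exact h1
  have hDD : D ≤ D / c := by
    rw [le_div_iff₀ hcpos]
    calc D * c ≤ D * 1 := mul_le_mul' le_rfl hc1
      _ = D := mul_one D
  obtain ⟨β, hβ, hβ'⟩ := IH (D / c) (by
    intro σ hσ
    have : σ β₁ - β₁ = σ (β₁ - α) + (σ α - α) - (β₁ - α) := by
      rw [map_sub]; ring
    rw [this]
    refine le_trans (Valuation.map_sub _ _ _) (max_le ?_ hx)
    refine le_trans (Valuation.map_add _ _ _) (max_le ?_ (le_trans (hα σ hσ) hDD))
    rw [val_map hH hσ]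
    exact hx)
  refine ⟨β, hβ, ?_⟩
  have h2 : α - β = (β₁ - β) - (β₁ - α) := by ring
  rw [h2]
  have h3 : P.valuation ((β₁ - β) - (β₁ - α)) ≤
      max (P.valuation (β₁ - β)) (P.valuation (β₁ - α)) := Valuation.map_sub _ _ _
  rcases le_max_iff.mp h3 with h4 | h4
  · calc budget P p k * P.valuation ((β₁ - β) - (β₁ - α))
        ≤ (budget P p k' * c) * P.valuation (β₁ - β) := mul_le_mul' hB2 h4
      _ = (budget P p k' * P.valuation (β₁ - β)) * c := mul_right_comm _ _ _
      _ ≤ (D / c) * c := mul_le_mul' hβ' le_rfl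
      _ = D := div_mul_cancel₀ D hc0
  · calc budget P p k * P.valuation ((β₁ - β) - (β₁ - α))
        ≤ c * P.valuation (β₁ - α) := mul_le_mul' hB1 h4
      _ ≤ D := h1

variable (hp : p.Prime) (hp2 : p ≠ 2) (hP : P.LiesOverPrime p)
include hp hp2 hP

theorem main_aux : ∀ n : ℕ, ∀ k : ℕ, n < p ^ (k + 1) → ∀ (α : Qbar) (D : P.ValueGroup),
    (orbFin H α).card = n → (∀ σ ∈ H, P.valuation (σ α - α) ≤ D) →
    ∃ β : Qbar, (∀ σ ∈ H, σ β = β) ∧ budget P p k * P.valuation (α - β) ≤ D := by
  intro n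
  induction n using Nat.strong_induction_on with
  | _ n ih =>
  intro k hnk α D hcard hα
  rcases Nat.lt_or_ge n 2 with hn2 | hn2
  · have hpos : 0 < n := by
      rw [← hcard]
      exact Finset.card_pos.mpr ⟨α, self_mem_orbFin α⟩
    have h1 : (orbFin H α).card = 1 := by omega
    refine ⟨α, fixed_of_card_orbFin_eq_one h1, ?_⟩
    rw [sub_self, map_zero, mul_zero]
    exact zero_le
  · obtain ⟨e, m, hm, hnem⟩ := Nat.exists_eq_pow_mul_and_not_dvd (n := n) (by omega) p hp.ne_one
    have hp3 : 3 ≤ p := by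
      have := hp.two_le
      omega
    have hm0 : m ≠ 0 := by
      rintro rfl
      simp at hm
    rcases Nat.lt_or_ge m 2 with hm2 | hm2
    · -- `n = p ^ e`, `e ≥ 1`
      have hm1 : m = 1 := by omega
      subst hm1
      rw [mul_one] at hnem
      have he : e ≠ 0 := by
        rintro rfl
        rw [pow_zero] at hnem
        omega
      obtain ⟨e', rfl⟩ := Nat.exists_eq_succ_of_ne_zero he
      have hqn : p ^ e' < n := by
        rw [hnem]
        exact Nat.pow_lt_pow_right hp.one_lt (Nat.lt_succ_self e')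
      obtain ⟨β₁, hβcard, hβval⟩ := exists_step α D (p ^ e') (by rw [hcard]; exact hqn) hα
      rw [hcard] at hβcard hβval
      have hchoose : P.valuation ((n.choose (p ^ e') : ℕ) : Qbar) = P.valuation (p : Qbar) := by
        rw [hnem]
        exact val_choose_pow hp hP e'
      rw [hchoose] at hβval
      -- `n - q ≥ 2 ^ (e' + 1)`
      have hge : 2 ^ (e' + 1) ≤ n - p ^ e' := by
        have h1 : n - p ^ e' = p ^ e' * (p - 1) := by
          rw [hnem, pow_succ, Nat.mul_sub, mul_one]
        rw [h1, pow_succ]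
        exact Nat.mul_le_mul (Nat.pow_le_pow_left (by omega) e') (by omega)
      have hnq0 : n - p ^ e' ≠ 0 := by
        have : 0 < 2 ^ (e' + 1) := pow_pos two_pos _
        omega
      have hc : gam P p (e' + 1) * P.valuation (β₁ - α) ≤ D := by
        rw [← pow_le_pow_iff_left₀ zero_le zero_le hnq0, mul_pow]
        refine le_trans (mul_le_mul' ?_ le_rfl) (by rw [mul_comm]; exact hβval)
        calc gam P p (e' + 1) ^ (n - p ^ e') ≤ gam P p (e' + 1) ^ (2 ^ (e' + 1)) :=
              pow_le_pow_of_le_one zero_le (gam_le_one hP _) hge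
          _ = P.valuation (p : Qbar) := gam_pow P p _
      have hek : e' + 1 ≤ k := by
        have : p ^ (e' + 1) < p ^ (k + 1) := by rw [← hnem]; exact hnk
        have := (Nat.pow_lt_pow_iff_right hp.one_lt).mp this
        omega
      refine combine hH (gam P p (e' + 1)) (gam_ne_zero hp _) k e' ?_ ?_ (gam_le_one hP _)
        α β₁ D hα hc ?_
      · exact le_trans (budget_antitone hP hek) (budget_succ_le_gam hP e')
      · rw [← budget_succ]
        exact budget_antitone hP hek
      · intro D' hD'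
        have hqpos : 0 < p ^ e' := pow_pos hp.pos _
        refine ih (orbFin H β₁).card ?_ e' ?_ β₁ D' rfl hD'
        · omega
        · rw [← hnem]
          omega
    · -- `n = p ^ e * m`, `m ≥ 2`, `p ∤ m`
      have hqpos : 0 < p ^ e := pow_pos hp.pos _
      have hqn : p ^ e < n := by
        rw [hnem]
        calc p ^ e = p ^ e * 1 := (mul_one _).symm
          _ < p ^ e * m := Nat.mul_lt_mul_of_pos_left (by omega) hqpos
      obtain ⟨β₁, hβcard, hβval⟩ := exists_step α D (p ^ e) (by rw [hcard]; exact hqn) hα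
      rw [hcard] at hβcard hβval
      have hchoose : P.valuation ((n.choose (p ^ e) : ℕ) : Qbar) = 1 := by
        rw [hnem]
        exact val_choose_eq_one hp hP e m hm
      rw [hchoose, mul_one] at hβval
      have hnq0 : n - p ^ e ≠ 0 := by omega
      have hc : 1 * P.valuation (β₁ - α) ≤ D := by
        rw [one_mul]
        exact (pow_le_pow_iff_left₀ zero_le zero_le hnq0).mp hβval
      refine combine hH 1 one_ne_zero k k (budget_le_one hP k) (by rw [mul_one]) le_rfl
        α β₁ D hα hc ?_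
      intro D' hD'
      refine ih (orbFin H β₁).card ?_ k ?_ β₁ D' rfl hD'
      · omega
      · omega

/-- **Ax's lemma**, valuation form: the total loss is at most the valuation of `p`. -/
theorem exists_fixed_val (α : Qbar) (D : P.ValueGroup)
    (hα : ∀ σ ∈ H, P.valuation (σ α - α) ≤ D) :
    ∃ β : Qbar, (∀ σ ∈ H, σ β = β) ∧ P.valuation (p : Qbar) * P.valuation (α - β) ≤ D := by
  set n := (orbFin H α).card with hn
  have hnk : n < p ^ (n + 1) :=
    lt_trans (Nat.lt_pow_self hp.one_lt) (Nat.pow_lt_pow_right hp.one_lt (Nat.lt_succ_self n))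
  obtain ⟨β, hβ, hβ'⟩ := main_aux hH hp hp2 hP n n hnk α D rfl hα
  exact ⟨β, hβ, le_trans (mul_le_mul' (val_p_le_budget hP n) le_rfl) hβ'⟩

omit hH hp hp2 hP in
theorem val_le_of_eq_mul {x δ w : Qbar} (hw : w ∈ P) (h : x = δ * w) :
    P.valuation x ≤ P.valuation δ := by
  rw [h, map_mul]
  calc P.valuation δ * P.valuation w ≤ P.valuation δ * 1 :=
        mul_le_mul' le_rfl ((P.valuation_le_one_iff _).mpr hw)
    _ = P.valuation δ := mul_one _

omit hH hp hp2 hP in
theorem exists_eq_mul_of_val_le {x δ : Qbar} (h : P.valuation x ≤ P.valuation δ) :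
    ∃ w ∈ P, x = δ * w := by
  by_cases hδ : δ = 0
  · subst hδ
    rw [map_zero, le_zero_iff, Valuation.zero_iff] at h
    exact ⟨0, P.zero_mem, by rw [h, mul_zero]⟩
  · refine ⟨x / δ, ?_, by field_simp⟩
    rw [← P.valuation_le_one_iff, map_div₀,
      div_le_one₀ (zero_lt_iff.mpr ((Valuation.ne_zero_iff _).mpr hδ))]
    exact h

/-- **Ax's lemma**: if `σ α - α ∈ δ P` for all `σ ∈ H` then `α` is congruent modulo `δ / p` to an
`H`-fixed element. -/
theorem exists_fixed_approx (α δ : Qbar) (hα : ∀ σ ∈ H, ∃ w ∈ P, σ α - α = δ * w) :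
    ∃ β : Qbar, (∀ σ ∈ H, σ β = β) ∧ ∃ w ∈ P, (p : Qbar) * (α - β) = δ * w := by
  obtain ⟨β, hβ, hβ'⟩ := exists_fixed_val hH hp hp2 hP α (P.valuation δ) (fun σ hσ => by
    obtain ⟨w, hw, h⟩ := hα σ hσ
    exact val_le_of_eq_mul hw h)
  refine ⟨β, hβ, exists_eq_mul_of_val_le ?_⟩
  rw [map_mul]
  exact hβ'

end Main

end Fermat.Agent.S33x.Ax
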