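/-
S33 study support (helper57): **approximately equivariant functions are approximated by exactly
equivariant ones** (function-level corollary of Ax's lemma).

`P` a valuation subring of `Qbar` over an odd prime `p`, `G` a subgroup of `Gal(ℚ̄/ℚ)` preserving
`P` (for instance the inertia group of `P`), acting on a set `X` through `act`.  If
`f (act σ x) - σ (f x) ∈ δ P` for all `σ ∈ G` and `x`, then there is `f'` with
`f' (act σ x) = σ (f' x)` EXACTLY and `p (f' x - f x) ∈ δ P`.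
-/
import Mathlib
import Fermat.Prelude.Def_FLTPrelim_Ramification
import Fermat.Agent.S33x.Ax.AxLemma

set_option autoImplicit false

open scoped Pointwise

namespace Fermat.Agent.S33x.Ax

local notation "Qbar" => AlgebraicClosure ℚ
local notation "Γℚ" => (AlgebraicClosure ℚ ≃ₐ[ℚ] AlgebraicClosure ℚ)

/-- a subgroup of the inertia group of `P` preserves `P`. -/
theorem preserves_of_le_inertia (P : ValuationSubring Qbar) (H : Subgroup Γℚ)
    (hHI : H ≤ P.inertiaSubgroupIn ℚ) : Preserves P H := by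
  intro σ hσ a ha
  obtain ⟨τ, -, rfl⟩ := hHI hσ
  have h1 : (τ : Qbar ≃ₐ[ℚ] Qbar) • P = P := τ.2
  have h2 : (τ : Qbar ≃ₐ[ℚ] Qbar) a ∈ (τ : Qbar ≃ₐ[ℚ] Qbar) • P :=
    (ValuationSubring.mem_smul_pointwise_iff_exists _ _ _).2 ⟨a, ha, rfl⟩
  rw [h1] at h2
  exact h2

theorem preserves_inertia (P : ValuationSubring Qbar) : Preserves P (P.inertiaSubgroupIn ℚ) :=
  preserves_of_le_inertia P _ le_rfl

theorem Preserves.mono {P : ValuationSubring Qbar} {G H : Subgroup Γℚ} (hG : Preserves P G)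
    (hHG : H ≤ G) : Preserves P H :=
  fun σ hσ a ha => hG σ (hHG hσ) a ha

section Lift

variable {P : ValuationSubring Qbar} {G : Subgroup Γℚ} (hG : Preserves P G)
  {p : ℕ} (hp : p.Prime) (hp2 : p ≠ 2) (hP : P.LiesOverPrime p)
  {X : Type*} (act : Γℚ → X → X) (hone : ∀ x, act 1 x = x)
  (hmul : ∀ σ ∈ G, ∀ τ ∈ G, ∀ x, act (σ * τ) x = act σ (act τ x))

/-- the stabiliser of `x` in `G`. -/
def stab (G : Subgroup Γℚ) {X : Type*} (act : Γℚ → X → X) (hone : ∀ x, act 1 x = x)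
    (hmul : ∀ σ ∈ G, ∀ τ ∈ G, ∀ x, act (σ * τ) x = act σ (act τ x)) (x : X) : Subgroup Γℚ where
  carrier := {σ | σ ∈ G ∧ act σ x = x}
  mul_mem' := by
    rintro σ τ ⟨hσ, hσx⟩ ⟨hτ, hτx⟩
    exact ⟨G.mul_mem hσ hτ, by rw [hmul σ hσ τ hτ, hτx, hσx]⟩
  one_mem' := ⟨G.one_mem, hone x⟩
  inv_mem' := by
    rintro σ ⟨hσ, hσx⟩
    refine ⟨G.inv_mem hσ, ?_⟩
    have := hmul σ⁻¹ (G.inv_mem hσ) σ hσ x
    rw [inv_mul_cancel, hone, hσx] at this
    exact this.symm

theorem mem_stab {x : X} {σ : Γℚ} : σ ∈ stab G act hone hmul x ↔ σ ∈ G ∧ act σ x = x := Iff.rfl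

theorem stab_le (x : X) : stab G act hone hmul x ≤ G := fun _ h => h.1

/-- the orbit relation of `G` on `X`. -/
def orbitSetoid (G : Subgroup Γℚ) {X : Type*} (act : Γℚ → X → X) (hone : ∀ x, act 1 x = x)
    (hmul : ∀ σ ∈ G, ∀ τ ∈ G, ∀ x, act (σ * τ) x = act σ (act τ x)) : Setoid X where
  r x y := ∃ σ ∈ G, act σ x = y
  iseqv := by
    refine ⟨fun x => ⟨1, G.one_mem, hone x⟩, ?_, ?_⟩
    · rintro x y ⟨σ, hσ, rfl⟩
      refine ⟨σ⁻¹, G.inv_mem hσ, ?_⟩
      rw [← hmul σ⁻¹ (G.inv_mem hσ) σ hσ, inv_mul_cancel, hone]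
    · rintro x y z ⟨σ, hσ, rfl⟩ ⟨τ, hτ, rfl⟩
      exact ⟨τ * σ, G.mul_mem hτ hσ, hmul τ hτ σ hσ x⟩

include hG hp hp2 hP hone hmul

/-- **Equivariant correction.** -/
theorem exists_equivariant_approx (f : X → Qbar) (δ : Qbar)
    (hf : ∀ σ ∈ G, ∀ x, ∃ w ∈ P, f (act σ x) - σ (f x) = δ * w) :
    ∃ f' : X → Qbar, (∀ σ ∈ G, ∀ x, f' (act σ x) = σ (f' x)) ∧
      ∀ x, ∃ w ∈ P, (p : Qbar) * (f' x - f x) = δ * w := by
  classical
  let S : Setoid X := orbitSetoid G act hone hmul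
  -- orbit representatives
  let rep : X → X := fun x => (Quotient.mk S x).out
  have hrep : ∀ x, ∃ τ ∈ G, act τ (rep x) = x := fun x => Quotient.mk_out (s := S) x
  have hrep_act : ∀ σ ∈ G, ∀ x, rep (act σ x) = rep x := by
    intro σ hσ x
    have : Quotient.mk S (act σ x) = Quotient.mk S x :=
      Quotient.sound (S.symm ⟨σ, hσ, rfl⟩)
    show (Quotient.mk S (act σ x)).out = (Quotient.mk S x).out
    rw [this]
  choose t ht htx using hrep
  -- the fixed approximations at the representatives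
  have hax : ∀ x₀ : X, ∃ β : Qbar, (∀ σ ∈ stab G act hone hmul x₀, σ β = β) ∧
      ∃ w ∈ P, (p : Qbar) * (f x₀ - β) = δ * w := by
    intro x₀
    refine exists_fixed_approx (hG.mono (stab_le act hone hmul x₀)) hp hp2 hP (f x₀) δ ?_
    rintro σ ⟨hσ, hσx⟩
    obtain ⟨w, hw, h⟩ := hf σ hσ x₀
    rw [hσx] at h
    refine ⟨-w, P.neg_mem _ hw, ?_⟩
    rw [mul_neg, ← h]
    ring
  choose b hbfix hb using hax
  refine ⟨fun x => t x (b (rep x)), ?_, ?_⟩
  · intro σ hσ x
    show t (act σ x) (b (rep (act σ x))) = σ (t x (b (rep x)))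
    rw [hrep_act σ hσ x]
    -- `(σ t_x)⁻¹ t_{σ x}` stabilises `rep x`
    have h1 : act (t (act σ x)) (rep x) = act σ x := by
      have := htx (act σ x)
      rwa [hrep_act σ hσ x] at this
    have hmem : (σ * t x)⁻¹ * t (act σ x) ∈ stab G act hone hmul (rep x) := by
      refine ⟨G.mul_mem (G.inv_mem (G.mul_mem hσ (ht x))) (ht _), ?_⟩
      rw [hmul _ (G.inv_mem (G.mul_mem hσ (ht x))) _ (ht _), h1]
      have h2 : act (σ * t x) (rep x) = act σ x := by rw [hmul σ hσ _ (ht x), htx x]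
      rw [← h2, ← hmul _ (G.inv_mem (G.mul_mem hσ (ht x))) _ (G.mul_mem hσ (ht x)),
        inv_mul_cancel, hone]
    have h3 := hbfix (rep x) _ hmem
    rw [AlgEquiv.mul_apply] at h3
    have h4 : t (act σ x) (b (rep x)) = (σ * t x) (b (rep x)) := by
      have := congrArg (σ * t x) h3
      rwa [← AlgEquiv.mul_apply, mul_inv_cancel, AlgEquiv.one_apply] at this
    rw [h4, AlgEquiv.mul_apply]
  · intro x
    show ∃ w ∈ P, (p : Qbar) * (t x (b (rep x)) - f x) = δ * w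
    obtain ⟨w₁, hw₁, h₁⟩ := hb (rep x)
    obtain ⟨w₂, hw₂, h₂⟩ := hf (t x) (ht x) (rep x)
    rw [htx x] at h₂
    -- `t x δ = δ * u` with `u ∈ P`
    have hδ : ∃ u ∈ P, t x δ = δ * u :=
      exists_eq_mul_of_val_le (le_of_eq (val_map hG (ht x) δ))
    obtain ⟨u, hu, hδu⟩ := hδ
    have hpP : (p : Qbar) ∈ P := natCast_mem P p
    refine ⟨- (u * t x w₁) - (p : Qbar) * w₂, ?_, ?_⟩
    · exact P.toSubring.sub_mem (P.neg_mem _ (P.mul_mem _ _ hu (hG _ (ht x) _ hw₁)))
        (P.mul_mem _ _ hpP hw₂)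
    · have h5 : (p : Qbar) * (t x (f (rep x)) - t x (b (rep x))) = t x δ * t x w₁ := by
        have := congrArg (t x) h₁
        rwa [map_mul, map_mul, map_sub, map_natCast] at this
      have h6 : t x (b (rep x)) - f x =
          -(t x (f (rep x)) - t x (b (rep x))) - (f x - t x (f (rep x))) := by ring
      rw [h6, mul_sub, mul_neg, h5, h₂, hδu]
      ring

/-- the same with `δ = p ^ (n + 1)`: loss of one power of `p`. -/
theorem exists_equivariant_approx_pow (f : X → Qbar) (n : ℕ)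
    (hf : ∀ σ ∈ G, ∀ x, ∃ w ∈ P, f (act σ x) - σ (f x) = (p : Qbar) ^ (n + 1) * w) :
    ∃ f' : X → Qbar, (∀ σ ∈ G, ∀ x, f' (act σ x) = σ (f' x)) ∧
      ∀ x, ∃ w ∈ P, f' x - f x = (p : Qbar) ^ n * w := by
  obtain ⟨f', h1, h2⟩ := exists_equivariant_approx hG hp hp2 hP act hone hmul f _ hf
  refine ⟨f', h1, fun x => ?_⟩
  obtain ⟨w, hw, h⟩ := h2 x
  refine ⟨w, hw, ?_⟩
  have hp0 : (p : Qbar) ≠ 0 := Nat.cast_ne_zero.mpr hp.ne_zero
  apply mul_left_cancel₀ hp0
  rw [h]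
  ring

end Lift

/-! ### The form consumed by Layer 3 of the S33 blueprint: coordinates and the inertia group -/

section Coord

variable (P : ValuationSubring Qbar) {p : ℕ} (hp : p.Prime) (hp2 : p ≠ 2)
  (hP : P.LiesOverPrime p) {X : Type*} (act : Γℚ → X → X)

include hp hp2 hP in
/-- **Approximately inertia-equivariant coordinates can be made exactly equivariant** at the cost
of one power of `p`.  Only the action axioms for elements of the inertia group are used. -/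
theorem exists_equivariant_coord (hone : ∀ x, act 1 x = x)
    (hmul : ∀ σ ∈ P.inertiaSubgroupIn ℚ, ∀ τ ∈ P.inertiaSubgroupIn ℚ, ∀ x,
      act (σ * τ) x = act σ (act τ x))
    {g : ℕ} (coord : X → Fin g → Qbar) (n : ℕ)
    (hc : ∀ σ ∈ P.inertiaSubgroupIn ℚ, ∀ x i, ∃ w ∈ P,
      coord (act σ x) i - σ (coord x i) = (p : Qbar) ^ (n + 1) * w) :
    ∃ coord' : X → Fin g → Qbar,
      (∀ σ ∈ P.inertiaSubgroupIn ℚ, ∀ x i, coord' (act σ x) i = σ (coord' x i)) ∧
      ∀ x i, ∃ w ∈ P, coord' x i - coord x i = (p : Qbar) ^ n * w := by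
  have h := fun i : Fin g => exists_equivariant_approx_pow (preserves_inertia P) hp hp2 hP act
    hone hmul (fun x => coord x i) n (fun σ hσ x => hc σ hσ x i)
  choose c' hc1 hc2 using h
  exact ⟨fun x i => c' i x, fun σ hσ x i => hc1 i σ hσ x, fun x i => hc2 i x⟩

include hP in
/-- a correction by a multiple of `p` stays in the maximal ideal. -/
theorem mem_nonunits_of_sub_eq {y y' w : Qbar} {n : ℕ} (hn : n ≠ 0) (hy : y ∈ P.nonunits)
    (hw : w ∈ P) (h : y' - y = (p : Qbar) ^ n * w) : y' ∈ P.nonunits := by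
  rw [ValuationSubring.mem_nonunits_iff] at hy ⊢
  have h1 : y' = y + (p : Qbar) ^ n * w := by rw [← h]; ring
  rw [h1]
  refine lt_of_le_of_lt (Valuation.map_add _ _ _) (max_lt hy ?_)
  rw [map_mul, map_pow]
  have hp1 : P.valuation (p : Qbar) < 1 := val_p_lt_one hP
  have hw1 : P.valuation w ≤ 1 := (P.valuation_le_one_iff _).mpr hw
  calc P.valuation (p : Qbar) ^ n * P.valuation w ≤ P.valuation (p : Qbar) ^ n * 1 :=
        mul_le_mul' le_rfl hw1
    _ = P.valuation (p : Qbar) ^ n := mul_one _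
    _ < 1 := pow_lt_one₀ zero_le hp1 hn

end Coord

end Fermat.Agent.S33x.Ax
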