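/-
S33 (blueprint v2, LAYER 3, leaf L3-a): the AX LEMMA, field-free form (helper65, independent second).

`Qbar = AlgebraicClosure ℚ`, `P` a valuation subring of `Qbar` over an ODD prime `p`, `H` a subgroup
of `Gal(Qbar/ℚ)` preserving `P`.  If `a` is fixed by `H` modulo `δ • P` (`σ a - a ∈ δ • P` for all
`σ ∈ H`), then there is an EXACTLY `H`-fixed `b` with `p • (a - b) ∈ δ • P` (`ax_lemma`).
No finite field of definition, no completion, no different: only `H` preserves `P` and `Qbar` is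
algebraically closed.

Proof (Ax 1970, in the bookkeeping proposed by helper22).  Induction on the size `n` of a finite
`H`-stable set `T ∋ a` all of whose elements are within `δ` of `a`.  For `0 < N < n` the polynomial
`g = ∑_{S ⊆ T, |S| = N} ∏_{s ∈ S} (X - s)` is `H`-invariant, has degree `N` and leading coefficient
`choose n N`, and `g(a)` is a sum of products of `N` elements of `δ • P`; so some root `β` of `g`
satisfies `|choose n N| |a - β|^N ≤ |δ|^N`.  With `n = p^k m`, `p ∤ m`, take `N = n - p^k` if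
`m > 1` (binomial coefficient prime to `p`, no loss) and `N = p^k - p^(k-1)` if `m = 1` (binomial
coefficient `p • unit`, loss `|p|^(1/N)`, `N ≥ 2^k`).  The roots of `g` within `δ'` of `β` form a
smaller stable set.  The losses are bounded by means of iterated square roots `ρ_k` of `p`.

* `val_map_eq` : automorphisms preserving `P` are isometries (finite orbits; no rank-one hypothesis);
* `ax_lemma` : the statement above;
* `exists_equivariant_of_approx` : function form on a set with an action of `H`;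
* `exists_inertia_equivariant_of_approx` : the form wanted by Layer 3 (inertia group, `p ^ n`).
-/
import Mathlib
import Fermat.Prelude.Def_FLTPrelim_Ramification

set_option autoImplicit false

open scoped Pointwise

noncomputable section

namespace Fermat.Agent.S33x.Ax.AxSecond

local notation "Qbar" => AlgebraicClosure ℚ
local notation "Γℚ" => (AlgebraicClosure ℚ ≃ₐ[ℚ] AlgebraicClosure ℚ)

/-- `a ∈ c • P`. -/
def DivIn (P : ValuationSubring Qbar) (c a : Qbar) : Prop := ∃ w ∈ P, a = c * w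

/-- `a ∈ c • P` in terms of the valuation of `P` -/
theorem divIn_iff_val_le (P : ValuationSubring Qbar) (c a : Qbar) :
    DivIn P c a ↔ P.valuation a ≤ P.valuation c := by
  constructor
  · rintro ⟨w, hw, rfl⟩
    rw [map_mul]
    exact mul_le_of_le_one_right' ((P.valuation_le_one_iff w).mpr hw)
  · intro h
    by_cases hc : c = 0
    · subst hc
      rw [map_zero, le_zero_iff, map_eq_zero] at h
      exact ⟨0, P.zero_mem, by rw [h, mul_zero]⟩
    · refine ⟨a / c, ?_, by field_simp⟩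
      rw [← P.valuation_le_one_iff, map_div₀]
      exact div_le_one_of_le₀ h zero_le

namespace DivIn

variable {P : ValuationSubring Qbar} {c a b : Qbar}

theorem zero (P : ValuationSubring Qbar) (c : Qbar) : DivIn P c 0 :=
  ⟨0, P.zero_mem, (mul_zero c).symm⟩

theorem add (ha : DivIn P c a) (hb : DivIn P c b) : DivIn P c (a + b) := by
  obtain ⟨w, hw, rfl⟩ := ha
  obtain ⟨v, hv, rfl⟩ := hb
  exact ⟨w + v, P.add_mem _ _ hw hv, (mul_add c w v).symm⟩

theorem neg (ha : DivIn P c a) : DivIn P c (-a) := by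
  obtain ⟨w, hw, rfl⟩ := ha
  exact ⟨-w, P.neg_mem _ hw, (mul_neg c w).symm⟩

theorem sub (ha : DivIn P c a) (hb : DivIn P c b) : DivIn P c (a - b) := by
  rw [sub_eq_add_neg]
  exact ha.add hb.neg

theorem mul_left (ha : DivIn P c a) {x : Qbar} (hx : x ∈ P) : DivIn P c (x * a) := by
  obtain ⟨w, hw, rfl⟩ := ha
  exact ⟨x * w, P.mul_mem _ _ hx hw, by ring⟩

/-- a field automorphism preserving `P` and fixing `c` preserves `c • P` -/
theorem map {σ : Γℚ} (hσ : ∀ x ∈ P, σ x ∈ P) (hc : σ c = c) (ha : DivIn P c a) :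
    DivIn P c (σ a) := by
  obtain ⟨w, hw, rfl⟩ := ha
  exact ⟨σ w, hσ w hw, by rw [map_mul, hc]⟩

end DivIn

/-! ### Integers in `P` -/

section Integers

variable (P : ValuationSubring Qbar)

theorem natCast_mem (n : ℕ) : (n : Qbar) ∈ P := by
  have : (n : Qbar) = ((n : P) : Qbar) := by push_cast; rfl
  rw [this]
  exact Subtype.coe_prop _

theorem intCast_mem (n : ℤ) : (n : Qbar) ∈ P := by
  have : (n : Qbar) = ((n : P) : Qbar) := by push_cast; rfl
  rw [this]
  exact Subtype.coe_prop _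

theorem val_natCast_le_one (n : ℕ) : P.valuation (n : Qbar) ≤ 1 :=
  (P.valuation_le_one_iff _).mpr (natCast_mem P n)

theorem val_prime_lt_one {p : ℕ} (hP : P.LiesOverPrime p) : P.valuation (p : Qbar) < 1 :=
  (ValuationSubring.mem_nonunits_iff (A := P)).mp hP

theorem val_prime_pos {p : ℕ} (hp : p.Prime) : 0 < P.valuation (p : Qbar) := by
  rw [zero_lt_iff, ne_eq, map_eq_zero]
  exact Nat.cast_ne_zero.mpr hp.ne_zero

/-- a natural number prime to `p` is a unit of `P` (`P` over `p`) -/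
theorem val_natCast_eq_one {p : ℕ} (hp : p.Prime) (hP : P.LiesOverPrime p) {u : ℕ}
    (hu : ¬ p ∣ u) : P.valuation (u : Qbar) = 1 := by
  have hcop : IsCoprime (p : ℤ) (u : ℤ) :=
    Nat.isCoprime_iff_coprime.mpr ((Nat.Prime.coprime_iff_not_dvd hp).mpr hu)
  obtain ⟨a, b, hab⟩ := hcop
  have hab' : (a : Qbar) * (p : Qbar) + (b : Qbar) * (u : Qbar) = 1 := by
    have := congrArg (fun z : ℤ => (z : Qbar)) hab
    push_cast at this
    exact this
  have hpv := val_prime_lt_one P hP
  have hav : P.valuation (a : Qbar) ≤ 1 := (P.valuation_le_one_iff _).mpr (intCast_mem P a)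
  have hbv : P.valuation (b : Qbar) ≤ 1 := (P.valuation_le_one_iff _).mpr (intCast_mem P b)
  refine le_antisymm (val_natCast_le_one P u) ?_
  by_contra hlt
  rw [not_le] at hlt
  have h1 : P.valuation ((a : Qbar) * (p : Qbar)) < 1 := by
    rw [map_mul]
    exact mul_lt_one_of_nonneg_of_lt_one_right hav zero_le hpv
  have h2 : P.valuation ((b : Qbar) * (u : Qbar)) < 1 := by
    rw [map_mul]
    exact mul_lt_one_of_nonneg_of_lt_one_right hbv zero_le hlt
  have h3 := P.valuation.map_add_lt h1 h2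
  rw [hab', map_one] at h3
  exact lt_irrefl _ h3

end Integers

/-! ### Orbits of algebraic numbers -/

/-- the `H`-orbit of `y`, as a set -/
def orbitSet (H : Subgroup Γℚ) (y : Qbar) : Set Qbar := {z | ∃ σ ∈ H, σ y = z}

theorem orbitSet_subset_rootSet (H : Subgroup Γℚ) (y : Qbar) :
    orbitSet H y ⊆ (minpoly ℚ y).rootSet Qbar := by
  rintro z ⟨σ, -, rfl⟩
  have : Algebra.IsAlgebraic ℚ Qbar := AlgebraicClosure.isAlgebraic ℚ
  have hy : IsIntegral ℚ y := (Algebra.IsAlgebraic.isAlgebraic (R := ℚ) y).isIntegral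
  rw [Polynomial.mem_rootSet]
  refine ⟨minpoly.ne_zero hy, ?_⟩
  have h1 : Polynomial.aeval (σ y) (minpoly ℚ y) = σ (Polynomial.aeval y (minpoly ℚ y)) :=
    Polynomial.aeval_algHom_apply (σ : Qbar →ₐ[ℚ] Qbar) y (minpoly ℚ y)
  rw [h1, minpoly.aeval, map_zero]

theorem orbitSet_finite (H : Subgroup Γℚ) (y : Qbar) : (orbitSet H y).Finite :=
  (Polynomial.rootSet_finite (minpoly ℚ y) Qbar).subset (orbitSet_subset_rootSet H y)

/-- the `H`-orbit of `y`, as a finite set -/
def orbit (H : Subgroup Γℚ) (y : Qbar) : Finset Qbar := (orbitSet_finite H y).toFinset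

theorem mem_orbit {H : Subgroup Γℚ} {y z : Qbar} : z ∈ orbit H y ↔ ∃ σ ∈ H, σ y = z := by
  unfold orbit
  rw [Set.Finite.mem_toFinset]
  rfl

theorem self_mem_orbit (H : Subgroup Γℚ) (y : Qbar) : y ∈ orbit H y :=
  mem_orbit.mpr ⟨1, H.one_mem, rfl⟩

theorem map_mem_orbit {H : Subgroup Γℚ} {y z : Qbar} {τ : Γℚ} (hτ : τ ∈ H) (hz : z ∈ orbit H y) :
    τ z ∈ orbit H y := by
  obtain ⟨σ, hσ, rfl⟩ := mem_orbit.mp hz
  exact mem_orbit.mpr ⟨τ * σ, H.mul_mem hτ hσ, rfl⟩

/-- some positive power of `σ` fixes `x` -/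
theorem exists_pow_apply_eq (σ : Γℚ) (x : Qbar) : ∃ k : ℕ, 0 < k ∧ (σ ^ k) x = x := by
  classical
  let f : ℕ → (orbit (⊤ : Subgroup Γℚ) x : Finset Qbar) := fun k =>
    ⟨(σ ^ k) x, mem_orbit.mpr ⟨σ ^ k, Subgroup.mem_top _, rfl⟩⟩
  obtain ⟨i, j, hij, hf⟩ := Finite.exists_ne_map_eq_of_infinite f
  have hf' : (σ ^ i) x = (σ ^ j) x := congrArg Subtype.val hf
  have key : ∀ i j : ℕ, i < j → (σ ^ i) x = (σ ^ j) x → ∃ k : ℕ, 0 < k ∧ (σ ^ k) x = x := by
    intro i j hlt h
    refine ⟨j - i, Nat.sub_pos_of_lt hlt, ?_⟩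
    have h1 : σ ^ j = σ ^ i * σ ^ (j - i) := by
      rw [← pow_add]
      congr 1
      omega
    rw [h1] at h
    have h2 : (σ ^ i) x = (σ ^ i) ((σ ^ (j - i)) x) := h
    exact ((σ ^ i).injective h2).symm
  rcases lt_or_gt_of_ne hij with h | h
  · exact key i j h hf'
  · exact key j i h hf'.symm

/-! ### Automorphisms preserving `P` are isometries -/

section Isometry

variable (P : ValuationSubring Qbar) (H : Subgroup Γℚ) (hHP : ∀ σ ∈ H, ∀ x ∈ P, σ x ∈ P)

include hHP

theorem map_mem_iff {σ : Γℚ} (hσ : σ ∈ H) (x : Qbar) : σ x ∈ P ↔ x ∈ P := by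
  refine ⟨fun h => ?_, hHP σ hσ x⟩
  have h1 := hHP σ⁻¹ (H.inv_mem hσ) _ h
  have h2 : σ⁻¹ (σ x) = x := by
    show (σ⁻¹ * σ) x = x
    rw [inv_mul_cancel]
    rfl
  rwa [h2] at h1

theorem val_map_lt_one {σ : Γℚ} (hσ : σ ∈ H) {x : Qbar} (hx : P.valuation x < 1) :
    P.valuation (σ x) < 1 := by
  by_cases hx0 : x = 0
  · rw [hx0, map_zero, map_zero]
    exact zero_lt_one
  · by_contra hcon
    rw [not_lt] at hcon
    have hσx0 : σ x ≠ 0 := fun h => hx0 ((map_eq_zero σ).mp h)
    have h1 : P.valuation ((σ x)⁻¹) ≤ 1 := by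
      rw [map_inv₀]
      exact inv_le_one_of_one_le₀ hcon
    have h2 : σ (x⁻¹) ∈ P := by
      rw [map_inv₀]
      exact (P.valuation_le_one_iff _).mp h1
    have h3 : x⁻¹ ∈ P := (map_mem_iff P H hHP hσ _).mp h2
    have h4 : P.valuation (x⁻¹) ≤ 1 := (P.valuation_le_one_iff _).mpr h3
    rw [map_inv₀] at h4
    have h5 : 1 ≤ P.valuation x := by
      have hpos : 0 < P.valuation x := by
        rw [zero_lt_iff, ne_eq, map_eq_zero]
        exact hx0
      exact (inv_le_one₀ hpos).mp h4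
    exact absurd hx (not_lt.mpr h5)

theorem one_le_val_map_div {σ : Γℚ} (hσ : σ ∈ H) {x : Qbar} (hx : x ≠ 0) :
    1 ≤ P.valuation (σ x / x) := by
  by_contra hcon
  rw [not_le] at hcon
  have hstep : ∀ k : ℕ, P.valuation ((σ ^ (k + 1)) x / x) < 1 := by
    intro k
    induction k with
    | zero => simpa using hcon
    | succ k ih =>
      have h1 : (σ ^ (k + 1 + 1)) x / x = σ ((σ ^ (k + 1)) x / x) * (σ x / x) := by
        rw [map_div₀]
        have hσx0 : σ x ≠ 0 := fun h => hx ((map_eq_zero σ).mp h)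
        have h2 : (σ ^ (k + 1 + 1)) x = σ ((σ ^ (k + 1)) x) := by
          rw [pow_succ' σ (k + 1)]
          rfl
        rw [h2]
        field_simp
      rw [h1, map_mul]
      exact mul_lt_one_of_nonneg_of_lt_one_left zero_le (val_map_lt_one P H hHP hσ ih) hcon.le
  obtain ⟨k, hk, hkx⟩ := exists_pow_apply_eq σ x
  obtain ⟨k, rfl⟩ : ∃ k', k = k' + 1 := ⟨k - 1, by omega⟩
  have := hstep k
  rw [hkx, div_self hx, map_one] at this
  exact lt_irrefl _ this

/-- **Isometry.**  An automorphism in a group preserving `P` preserves the valuation of `P`. -/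
theorem val_map_eq {σ : Γℚ} (hσ : σ ∈ H) (x : Qbar) : P.valuation (σ x) = P.valuation x := by
  by_cases hx : x = 0
  · rw [hx, map_zero]
  · have hσx0 : σ x ≠ 0 := fun h => hx ((map_eq_zero σ).mp h)
    have h1 := one_le_val_map_div P H hHP hσ hx
    have h2 := one_le_val_map_div P H hHP (H.inv_mem hσ) hσx0
    have h3 : σ⁻¹ (σ x) = x := by
      show (σ⁻¹ * σ) x = x
      rw [inv_mul_cancel]
      rfl
    rw [h3] at h2
    rw [map_div₀] at h1 h2
    have hpos : 0 < P.valuation x := by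
      rw [zero_lt_iff, ne_eq, map_eq_zero]
      exact hx
    have hpos' : 0 < P.valuation (σ x) := by
      rw [zero_lt_iff, ne_eq, map_eq_zero]
      exact hσx0
    exact le_antisymm ((one_le_div₀ hpos').mp h2) ((one_le_div₀ hpos).mp h1)

end Isometry

/-! ### The polynomial `∑_{S ⊆ T, |S| = N} ∏_{s ∈ S} (X - s)` -/

section GPoly

open Polynomial

/-- `∑_{S ⊆ T, |S| = N} ∏_{s ∈ S} (X - s)` (up to a sign, the `(|T| - N)`-th Hasse derivative of
`∏_{s ∈ T} (X - s)`) -/
def gpoly (T : Finset Qbar) (N : ℕ) : Qbar[X] :=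
  ∑ S ∈ T.powersetCard N, ∏ s ∈ S, (X - C s)

theorem eval_gpoly (T : Finset Qbar) (N : ℕ) (a : Qbar) :
    (gpoly T N).eval a = ∑ S ∈ T.powersetCard N, ∏ s ∈ S, (a - s) := by
  simp [gpoly, eval_finsetSum, eval_prod]

theorem val_eval_gpoly_le (P : ValuationSubring Qbar) (T : Finset Qbar) (N : ℕ) (a δ : Qbar)
    (h : ∀ s ∈ T, P.valuation (a - s) ≤ P.valuation δ) :
    P.valuation ((gpoly T N).eval a) ≤ P.valuation δ ^ N := by
  rw [eval_gpoly]
  refine Valuation.map_sum_le _ fun S hS => ?_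
  rw [Finset.mem_powersetCard] at hS
  rw [map_prod]
  have := Finset.prod_le_pow_card S (fun s => P.valuation (a - s)) (P.valuation δ)
    (fun s hs => h s (hS.1 hs))
  rwa [hS.2] at this

theorem monic_prod_X_sub_C (S : Finset Qbar) : (∏ s ∈ S, (X - C s) : Qbar[X]).Monic :=
  monic_prod_of_monic S _ fun s _ => monic_X_sub_C s

theorem natDegree_prod_X_sub_C (S : Finset Qbar) :
    (∏ s ∈ S, (X - C s) : Qbar[X]).natDegree = S.card := by
  rw [natDegree_prod_of_monic _ _ fun s _ => monic_X_sub_C s]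
  simp

theorem natDegree_gpoly_le (T : Finset Qbar) (N : ℕ) : (gpoly T N).natDegree ≤ N := by
  unfold gpoly
  refine natDegree_sum_le_of_forall_le _ _ fun S hS => ?_
  rw [Finset.mem_powersetCard] at hS
  rw [natDegree_prod_X_sub_C, hS.2]

theorem coeff_gpoly (T : Finset Qbar) (N : ℕ) :
    (gpoly T N).coeff N = ((T.card.choose N : ℕ) : Qbar) := by
  unfold gpoly
  rw [finsetSum_coeff]
  have h1 : ∀ S ∈ T.powersetCard N, (∏ s ∈ S, (X - C s) : Qbar[X]).coeff N = 1 := by
    intro S hS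
    rw [Finset.mem_powersetCard] at hS
    have := (monic_prod_X_sub_C S).coeff_natDegree
    rwa [natDegree_prod_X_sub_C, hS.2] at this
  rw [Finset.sum_congr rfl h1, Finset.sum_const, Finset.card_powersetCard, nsmul_eq_mul, mul_one]

theorem coeff_gpoly_ne_zero {T : Finset Qbar} {N : ℕ} (hN : N ≤ T.card) :
    (gpoly T N).coeff N ≠ 0 := by
  rw [coeff_gpoly]
  exact Nat.cast_ne_zero.mpr (Nat.choose_pos hN).ne'

theorem natDegree_gpoly {T : Finset Qbar} {N : ℕ} (hN : N ≤ T.card) :
    (gpoly T N).natDegree = N :=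
  natDegree_eq_of_le_of_coeff_ne_zero (natDegree_gpoly_le T N) (coeff_gpoly_ne_zero hN)

theorem leadingCoeff_gpoly {T : Finset Qbar} {N : ℕ} (hN : N ≤ T.card) :
    (gpoly T N).leadingCoeff = ((T.card.choose N : ℕ) : Qbar) := by
  rw [leadingCoeff, natDegree_gpoly hN, coeff_gpoly]

theorem gpoly_ne_zero {T : Finset Qbar} {N : ℕ} (hN : N ≤ T.card) : gpoly T N ≠ 0 := by
  intro h
  have := coeff_gpoly_ne_zero hN
  rw [h, coeff_zero] at this
  exact this rfl

/-- `gpoly T N` is invariant under an automorphism permuting `T` -/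
theorem map_gpoly (T : Finset Qbar) (N : ℕ) (σ : Γℚ) (hσ : ∀ s ∈ T, σ s ∈ T) :
    (gpoly T N).map (σ : Qbar →+* Qbar) = gpoly T N := by
  classical
  let e : Qbar ↪ Qbar := ⟨σ, σ.injective⟩
  have hT : T.map e = T := by
    refine Finset.eq_of_subset_of_card_le ?_ (by rw [Finset.card_map])
    intro z hz
    obtain ⟨s, hs, rfl⟩ := Finset.mem_map.mp hz
    exact hσ s hs
  have h1 : (gpoly T N).map (σ : Qbar →+* Qbar)
      = ∑ S ∈ T.powersetCard N, ∏ s ∈ S, (X - C (σ s)) := by
    unfold gpoly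
    rw [Polynomial.map_sum]
    refine Finset.sum_congr rfl fun S _ => ?_
    rw [Polynomial.map_prod]
    refine Finset.prod_congr rfl fun s _ => ?_
    rw [Polynomial.map_sub, map_X, map_C]
    rfl
  have h2 : gpoly T N = ∑ S ∈ T.powersetCard N, ∏ s ∈ S, (X - C (σ s)) := by
    conv_lhs => rw [← hT]
    unfold gpoly
    rw [Finset.powersetCard_map, Finset.sum_map]
    refine Finset.sum_congr rfl fun S _ => ?_
    show ∏ s ∈ S.map e, (X - C s) = _
    rw [Finset.prod_map]
    rfl
  rw [h1, ← h2]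

theorem isRoot_map_gpoly (T : Finset Qbar) (N : ℕ) (σ : Γℚ) (hσ : ∀ s ∈ T, σ s ∈ T) {β : Qbar}
    (hβ : (gpoly T N).IsRoot β) : (gpoly T N).IsRoot (σ β) := by
  have h1 : ((gpoly T N).map (σ : Qbar →+* Qbar)).eval (σ β) = σ ((gpoly T N).eval β) := by
    rw [eval_map]
    exact eval₂_at_apply (σ : Qbar →+* Qbar) β
  rw [map_gpoly T N σ hσ] at h1
  rw [IsRoot.def] at hβ ⊢
  rw [h1, hβ, map_zero]

/-- **A root of `gpoly` close to `a`.** -/
theorem exists_root_near (P : ValuationSubring Qbar) (T : Finset Qbar) {N : ℕ} (hN : 0 < N)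
    (hNT : N ≤ T.card) (a δ : Qbar) (h : ∀ s ∈ T, P.valuation (a - s) ≤ P.valuation δ) :
    ∃ β : Qbar, (gpoly T N).IsRoot β ∧
      P.valuation ((T.card.choose N : ℕ) : Qbar) * P.valuation (a - β) ^ N ≤ P.valuation δ ^ N := by
  classical
  have hsp : (gpoly T N).Splits := IsAlgClosed.splits _
  have hcard : Multiset.card (gpoly T N).roots = N := by
    rw [← hsp.natDegree_eq_card_roots, natDegree_gpoly hNT]
  have hne : (gpoly T N).roots.toFinset.Nonempty := by
    rw [Multiset.toFinset_nonempty]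
    intro h0
    rw [h0, Multiset.card_zero] at hcard
    omega
  obtain ⟨β, hβ, hmin⟩ :=
    Finset.exists_min_image (gpoly T N).roots.toFinset (fun β => P.valuation (a - β)) hne
  rw [Multiset.mem_toFinset] at hβ
  refine ⟨β, isRoot_of_mem_roots hβ, ?_⟩
  have heval := hsp.eval_eq_prod_roots a
  have h1 : P.valuation ((gpoly T N).eval a) = P.valuation ((T.card.choose N : ℕ) : Qbar) *
      (((gpoly T N).roots.map (fun β => a - β)).map P.valuation).prod := by
    rw [heval, map_mul, leadingCoeff_gpoly hNT, map_multiset_prod]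
  have h2 : P.valuation (a - β) ^ N
      ≤ (((gpoly T N).roots.map (fun β => a - β)).map P.valuation).prod := by
    have := Multiset.pow_card_le_prod
      (s := ((gpoly T N).roots.map (fun β => a - β)).map P.valuation)
      (a := P.valuation (a - β)) (by
        intro x hx
        rw [Multiset.map_map] at hx
        obtain ⟨γ, hγ, rfl⟩ := Multiset.mem_map.mp hx
        exact hmin γ (Multiset.mem_toFinset.mpr hγ))
    rwa [Multiset.card_map, Multiset.card_map, hcard] at this
  calc P.valuation ((T.card.choose N : ℕ) : Qbar) * P.valuation (a - β) ^ N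
      ≤ P.valuation ((T.card.choose N : ℕ) : Qbar) *
          (((gpoly T N).roots.map (fun β => a - β)).map P.valuation).prod :=
        mul_le_mul' le_rfl h2
    _ = P.valuation ((gpoly T N).eval a) := h1.symm
    _ ≤ P.valuation δ ^ N := val_eval_gpoly_le P T N a δ h

theorem card_roots_gpoly_le (T : Finset Qbar) (N : ℕ) :
    Multiset.card (gpoly T N).roots ≤ N :=
  (card_roots' _).trans (natDegree_gpoly_le T N)

end GPoly

/-! ### Binomial coefficients -/

section Binomial

variable (P : ValuationSubring Qbar) {p : ℕ} (hp : p.Prime) (hP : P.LiesOverPrime p)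

include hp hP

/-- `choose (p^k m) (p^k m - p^k)` is a unit of `P` for `p ∤ m` -/
theorem val_choose_eq_one (k : ℕ) {m : ℕ} (hm : ¬ p ∣ m) (hm0 : 0 < m) :
    P.valuation (((p ^ k * m).choose (p ^ k * m - p ^ k) : ℕ) : Qbar) = 1 := by
  have : Fact p.Prime := ⟨hp⟩
  have hle : p ^ k ≤ p ^ k * m := Nat.le_mul_of_pos_right _ hm0
  rw [Nat.choose_symm hle]
  refine val_natCast_eq_one P hp hP fun hdvd => hm ?_
  have h1 : (p ^ k * m).choose (p ^ k * 1) ≡ m.choose 1 [MOD p] :=
    Choose.choose_pow_mul_pow_mul_modEq_choose_nat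
  rw [mul_one, Nat.choose_one_right] at h1
  exact (Nat.ModEq.dvd_iff h1 (dvd_refl p)).mp hdvd

/-- `choose (p^(j+1)) (p^(j+1) - p^j)` is `p` times a unit of `P` -/
theorem val_choose_prime_pow (j : ℕ) :
    P.valuation (((p ^ (j + 1)).choose (p ^ (j + 1) - p ^ j) : ℕ) : Qbar)
      = P.valuation (p : Qbar) := by
  have hle : p ^ j ≤ p ^ (j + 1) := Nat.pow_le_pow_right hp.pos (Nat.le_succ j)
  rw [Nat.choose_symm hle]
  set c := (p ^ (j + 1)).choose (p ^ j) with hc
  have hc0 : c ≠ 0 := (Nat.choose_pos hle).ne'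
  have hfac : c.factorization p = 1 := by
    rw [hc, Nat.factorization_choose_prime_pow hp hle (pow_pos hp.pos j).ne',
      hp.factorization_pow]
    simp
  have hsplit := Nat.ordProj_mul_ordCompl_eq_self c p
  rw [hfac, pow_one] at hsplit
  have hu : ¬ p ∣ c / p ^ c.factorization p := Nat.not_dvd_ordCompl hp hc0
  rw [hfac, pow_one] at hu
  rw [← hsplit]
  push_cast
  rw [map_mul, val_natCast_eq_one P hp hP hu, mul_one]

end Binomial

/-! ### Iterated square roots of `p` -/

section Rho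

/-- iterated square roots of `p`: `ρ 0 = p`, `(ρ (k+1))^2 = ρ k` -/
def rho (p : ℕ) : ℕ → Qbar
  | 0 => (p : Qbar)
  | k + 1 => Classical.choose (IsAlgClosed.exists_pow_nat_eq (rho p k) (n := 2) two_pos)

theorem rho_zero (p : ℕ) : rho p 0 = (p : Qbar) := rfl

theorem rho_succ_sq (p k : ℕ) : rho p (k + 1) ^ 2 = rho p k :=
  Classical.choose_spec (IsAlgClosed.exists_pow_nat_eq (rho p k) (n := 2) two_pos)

theorem rho_pow (p k : ℕ) : rho p k ^ 2 ^ k = (p : Qbar) := by
  induction k with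
  | zero => simp [rho_zero]
  | succ k ih => rw [pow_succ' 2 k, pow_mul, rho_succ_sq, ih]

variable (P : ValuationSubring Qbar) {p : ℕ} (hp : p.Prime) (hP : P.LiesOverPrime p)

theorem val_rho_pow (k : ℕ) : P.valuation (rho p k) ^ 2 ^ k = P.valuation (p : Qbar) := by
  rw [← map_pow, rho_pow]

include hp in
theorem rho_ne_zero (k : ℕ) : rho p k ≠ 0 := by
  intro h
  have := rho_pow p k
  rw [h, zero_pow (pow_pos two_pos k).ne'] at this
  exact Nat.cast_ne_zero.mpr hp.ne_zero this.symm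

include hp in
theorem val_rho_pos (k : ℕ) : 0 < P.valuation (rho p k) := by
  rw [zero_lt_iff, ne_eq, map_eq_zero]
  exact rho_ne_zero hp k

include hP in
theorem val_rho_le_one (k : ℕ) : P.valuation (rho p k) ≤ 1 := by
  by_contra h
  rw [not_le] at h
  have h1 : 1 < P.valuation (rho p k) ^ 2 ^ k := one_lt_pow₀ h (pow_pos two_pos k).ne'
  rw [val_rho_pow] at h1
  exact lt_irrefl _ (h1.trans (val_prime_lt_one P hP))

theorem val_rho_succ_mul (k : ℕ) :
    P.valuation (rho p (k + 1)) * P.valuation (rho p (k + 1)) = P.valuation (rho p k) := by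
  rw [← map_mul, ← sq, rho_succ_sq]

include hP in
theorem val_rho_le_succ (k : ℕ) : P.valuation (rho p k) ≤ P.valuation (rho p (k + 1)) := by
  rw [← val_rho_succ_mul P k]
  exact mul_le_of_le_one_right' (val_rho_le_one P hP (k + 1))

include hP in
theorem val_rho_mono {k K : ℕ} (h : k ≤ K) : P.valuation (rho p k) ≤ P.valuation (rho p K) :=
  monotone_nat_of_le_succ (f := fun k => P.valuation (rho p k)) (val_rho_le_succ P hP) h

include hP in
theorem val_prime_le_val_rho (k : ℕ) : P.valuation (p : Qbar) ≤ P.valuation (rho p k) := by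
  have := val_rho_mono P hP (Nat.zero_le k)
  rwa [rho_zero] at this

include hP in
/-- `|ρ_k|^N ≤ |p|` for `N ≥ 2^k` -/
theorem val_rho_pow_le {k N : ℕ} (hN : 2 ^ k ≤ N) :
    P.valuation (rho p k) ^ N ≤ P.valuation (p : Qbar) := by
  rw [← val_rho_pow P k]
  exact pow_le_pow_of_le_one zero_le (val_rho_le_one P hP k) hN

end Rho

/-! ### Clusters and the induction -/

section Main

variable (P : ValuationSubring Qbar) (H : Subgroup Γℚ)

/-- `T` is a finite `H`-stable set containing `a`, all of whose elements are within `δ` of `a`. -/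
structure Cluster (T : Finset Qbar) (a δ : Qbar) : Prop where
  mem : a ∈ T
  stable : ∀ σ ∈ H, ∀ s ∈ T, σ s ∈ T
  near : ∀ s ∈ T, P.valuation (s - a) ≤ P.valuation δ

variable {P H}

/-- **The step.**  From a cluster of size `n` around `a` to a cluster of size `≤ N < n` around a
root `β` of `gpoly T N` close to `a`. -/
theorem Cluster.step (hHP : ∀ σ ∈ H, ∀ x ∈ P, σ x ∈ P) {T : Finset Qbar} {a δ : Qbar}
    (hT : Cluster P H T a δ) {N : ℕ} (hN : 0 < N) (hNT : N ≤ T.card) (δ' : Qbar)
    (hδ : P.valuation δ ≤ P.valuation δ')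
    (hβ : ∀ β : Qbar, P.valuation ((T.card.choose N : ℕ) : Qbar) * P.valuation (a - β) ^ N
      ≤ P.valuation δ ^ N → P.valuation (a - β) ≤ P.valuation δ') :
    ∃ (T' : Finset Qbar) (β : Qbar), T'.card ≤ N ∧ Cluster P H T' β δ' ∧
      P.valuation (a - β) ≤ P.valuation δ' := by
  classical
  obtain ⟨β, hroot, hineq⟩ := exists_root_near P T hN hNT a δ (fun s hs => by
    rw [Valuation.map_sub_swap]
    exact hT.near s hs)
  have hβ' := hβ β hineq
  refine ⟨(gpoly T N).roots.toFinset.filter (fun s => P.valuation (s - β) ≤ P.valuation δ'), β,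
    ?_, ⟨?_, ?_, ?_⟩, hβ'⟩
  · calc ((gpoly T N).roots.toFinset.filter _).card ≤ (gpoly T N).roots.toFinset.card :=
        Finset.card_filter_le _ _
      _ ≤ Multiset.card (gpoly T N).roots := Multiset.toFinset_card_le _
      _ ≤ N := card_roots_gpoly_le T N
  · rw [Finset.mem_filter, Multiset.mem_toFinset, Polynomial.mem_roots (gpoly_ne_zero hNT)]
    refine ⟨hroot, ?_⟩
    rw [sub_self, map_zero]
    exact zero_le
  · intro σ hσ s hs
    rw [Finset.mem_filter, Multiset.mem_toFinset, Polynomial.mem_roots (gpoly_ne_zero hNT)]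
      at hs ⊢
    refine ⟨isRoot_map_gpoly T N σ (hT.stable σ hσ) hs.1, ?_⟩
    have e : σ s - β = σ (s - β) + (σ (β - a) + ((σ a - a) + (a - β))) := by
      rw [map_sub, map_sub]
      ring
    rw [e]
    refine Valuation.map_add_le _ ?_ (Valuation.map_add_le _ ?_ (Valuation.map_add_le _ ?_ hβ'))
    · rw [val_map_eq P H hHP hσ]
      exact hs.2
    · rw [val_map_eq P H hHP hσ, Valuation.map_sub_swap]
      exact hβ'
    · exact (hT.near _ (hT.stable σ hσ a hT.mem)).trans hδ
  · intro s hs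
    rw [Finset.mem_filter] at hs
    exact hs.2

/-- **The induction.**  A cluster of size `< p^(K+1)` around `a` contains, up to the loss
`|p| / |ρ_K|`, an `H`-fixed element. -/
theorem Cluster.exists_fixed (hHP : ∀ σ ∈ H, ∀ x ∈ P, σ x ∈ P) {p : ℕ} (hp : p.Prime)
    (hp2 : p ≠ 2) (hP : P.LiesOverPrime p) :
    ∀ (n K : ℕ) (T : Finset Qbar) (a δ : Qbar), T.card = n → n < p ^ (K + 1) →
      Cluster P H T a δ →
      ∃ b : Qbar, (∀ σ ∈ H, σ b = b) ∧
        P.valuation (a - b) * P.valuation (p : Qbar) ≤ P.valuation δ * P.valuation (rho p K) := by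
  intro n
  induction n using Nat.strong_induction_on with
  | _ n ih =>
  intro K T a δ hcard hK hT
  have hp3 : 3 ≤ p := by
    have := hp.two_le
    omega
  -- the trivial sizes
  rcases Nat.lt_or_ge n 2 with hn2 | hn2
  · have hn1 : n = 1 := by
      have : 0 < T.card := Finset.card_pos.mpr ⟨a, hT.mem⟩
      omega
    rw [hn1] at hcard
    obtain ⟨x, hx⟩ := Finset.card_eq_one.mp hcard
    have hax : a = x := by
      have := hT.mem
      rwa [hx, Finset.mem_singleton] at this
    refine ⟨a, fun σ hσ => ?_, ?_⟩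
    · have := hT.stable σ hσ a hT.mem
      rw [hx, Finset.mem_singleton] at this
      rw [this, hax]
    · rw [sub_self, map_zero, zero_mul]
      exact zero_le
  -- `n = p ^ k * m`
  obtain ⟨k, m, hm, hnkm⟩ := Nat.exists_eq_pow_mul_and_not_dvd (by omega : n ≠ 0) p hp.ne_one
  have hm0 : 0 < m := by
    rcases Nat.eq_zero_or_pos m with h | h
    · exact absurd (h ▸ dvd_zero p) hm
    · exact h
  have hpk : 0 < p ^ k := pow_pos hp.pos k
  by_cases hm1 : m = 1
  · -- the lossy case `n = p ^ (j + 1)`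
    rw [hm1, mul_one] at hnkm
    obtain ⟨j, rfl⟩ : ∃ j, k = j + 1 := by
      rcases Nat.eq_zero_or_pos k with h | h
      · rw [h, pow_zero] at hnkm
        omega
      · exact ⟨k - 1, by omega⟩
    have hpj : 0 < p ^ j := pow_pos hp.pos j
    have hpjj : p ^ (j + 1) = p ^ j * p := pow_succ p j
    have hlt : p ^ j < p ^ (j + 1) := Nat.pow_lt_pow_right hp.one_lt (Nat.lt_succ_self j)
    set N := p ^ (j + 1) - p ^ j with hNdef
    have hN0 : 0 < N := Nat.sub_pos_of_lt hlt
    have hNn : N < n := by omega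
    have hNT : N ≤ T.card := by omega
    have hjK : j + 1 ≤ K := by
      have h1 : p ^ (j + 1) < p ^ (K + 1) := by rwa [← hnkm]
      have := (Nat.pow_lt_pow_iff_right hp.one_lt).mp h1
      omega
    have h2N : 2 ^ (j + 1) ≤ N := by
      have h1 : N = p ^ j * (p - 1) := by
        rw [hNdef, hpjj, Nat.mul_sub, mul_one]
      rw [h1, pow_succ]
      exact Nat.mul_le_mul (Nat.pow_le_pow_left hp.two_le j) (by omega)
    have hρpos := val_rho_pos P hp (j + 1)
    have hδ' : P.valuation (δ / rho p (j + 1)) * P.valuation (rho p (j + 1)) = P.valuation δ := by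
      rw [map_div₀, div_mul_cancel₀ _ hρpos.ne']
    have hchoose : P.valuation ((T.card.choose N : ℕ) : Qbar) = P.valuation (p : Qbar) := by
      rw [hcard, hnkm]
      exact val_choose_prime_pow P hp hP j
    obtain ⟨T', β, hT'card, hT', haβ⟩ := hT.step hHP hN0 hNT (δ / rho p (j + 1))
      (by
        rw [← hδ']
        exact mul_le_of_le_one_right' (val_rho_le_one P hP (j + 1)))
      (by
        intro β hβ
        rw [hchoose] at hβ
        refine le_of_mul_le_mul_right ?_ hρpos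
        rw [hδ']
        refine (pow_le_pow_iff_left₀ zero_le zero_le hN0.ne').mp ?_
        calc (P.valuation (a - β) * P.valuation (rho p (j + 1))) ^ N
            = P.valuation (rho p (j + 1)) ^ N * P.valuation (a - β) ^ N := by
              rw [mul_pow, mul_comm]
          _ ≤ P.valuation (p : Qbar) * P.valuation (a - β) ^ N :=
              mul_le_mul_left (val_rho_pow_le P hP h2N) _
          _ ≤ P.valuation δ ^ N := hβ)
    have hT'n : T'.card < n := lt_of_le_of_lt hT'card hNn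
    have hT'K : T'.card < p ^ (j + 1) := by omega
    obtain ⟨b, hbfix, hb⟩ := ih T'.card hT'n j T' β (δ / rho p (j + 1)) rfl hT'K hT'
    refine ⟨b, hbfix, ?_⟩
    have hgoal : P.valuation (a - b) * P.valuation (p : Qbar)
        ≤ P.valuation δ * P.valuation (rho p (j + 1)) := by
      have e : a - b = (a - β) + (β - b) := by ring
      rw [e]
      have h1 : P.valuation (a - β) * P.valuation (p : Qbar)
          ≤ P.valuation δ * P.valuation (rho p (j + 1)) := by
        calc P.valuation (a - β) * P.valuation (p : Qbar)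
            ≤ P.valuation (δ / rho p (j + 1)) * P.valuation (p : Qbar) := mul_le_mul_left haβ _
          _ ≤ P.valuation (δ / rho p (j + 1)) * P.valuation (rho p j) :=
              mul_le_mul_right (val_prime_le_val_rho P hP j) _
          _ = P.valuation δ * P.valuation (rho p (j + 1)) := by
              rw [← val_rho_succ_mul P j, ← mul_assoc, hδ']
      have h2 : P.valuation (β - b) * P.valuation (p : Qbar)
          ≤ P.valuation δ * P.valuation (rho p (j + 1)) := by
        calc P.valuation (β - b) * P.valuation (p : Qbar)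
            ≤ P.valuation (δ / rho p (j + 1)) * P.valuation (rho p j) := hb
          _ = P.valuation δ * P.valuation (rho p (j + 1)) := by
              rw [← val_rho_succ_mul P j, ← mul_assoc, hδ']
      rcases le_total (P.valuation (a - β)) (P.valuation (β - b)) with h | h
      · exact (mul_le_mul_left ((Valuation.map_add_le _ h le_rfl)) _).trans h2
      · exact (mul_le_mul_left ((Valuation.map_add_le _ le_rfl h)) _).trans h1
    exact hgoal.trans (mul_le_mul_right (val_rho_mono P hP hjK) _)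
  · -- the lossless case `m ≥ 2`
    have hm2 : 2 ≤ m := by omega
    set N := p ^ k * m - p ^ k with hNdef
    have hle : p ^ k < p ^ k * m := by
      calc p ^ k = p ^ k * 1 := (mul_one _).symm
        _ < p ^ k * m := Nat.mul_lt_mul_of_pos_left (by omega) hpk
    have hN0 : 0 < N := Nat.sub_pos_of_lt hle
    have hNn : N < n := by omega
    have hNT : N ≤ T.card := by omega
    have hchoose : P.valuation ((T.card.choose N : ℕ) : Qbar) = 1 := by
      rw [hcard, hnkm]
      exact val_choose_eq_one P hp hP k hm hm0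
    obtain ⟨T', β, hT'card, hT', haβ⟩ := hT.step hHP hN0 hNT δ le_rfl
      (by
        intro β hβ
        rw [hchoose, one_mul] at hβ
        exact (pow_le_pow_iff_left₀ zero_le zero_le hN0.ne').mp hβ)
    have hT'n : T'.card < n := lt_of_le_of_lt hT'card hNn
    obtain ⟨b, hbfix, hb⟩ := ih T'.card hT'n K T' β δ rfl (hT'n.trans hK) hT'
    refine ⟨b, hbfix, ?_⟩
    have e : a - b = (a - β) + (β - b) := by ring
    rw [e]
    have h1 : P.valuation (a - β) * P.valuation (p : Qbar)
        ≤ P.valuation δ * P.valuation (rho p K) :=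
      mul_le_mul' haβ (val_prime_le_val_rho P hP K)
    rcases le_total (P.valuation (a - β)) (P.valuation (β - b)) with h | h
    · exact (mul_le_mul_left ((Valuation.map_add_le _ h le_rfl)) _).trans hb
    · exact (mul_le_mul_left ((Valuation.map_add_le _ le_rfl h)) _).trans h1

/-- **AX LEMMA** (field-free form).  `P` a valuation subring of `Qbar` over the odd prime `p`, `H`
a group of automorphisms preserving `P`.  If `a` is `H`-fixed modulo `δ • P`, then there is an
exactly `H`-fixed `b` with `p • (a - b) ∈ δ • P`. -/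
theorem ax_lemma (P : ValuationSubring Qbar) (H : Subgroup Γℚ)
    (hHP : ∀ σ ∈ H, ∀ x ∈ P, σ x ∈ P) {p : ℕ} (hp : p.Prime) (hp2 : p ≠ 2)
    (hP : P.LiesOverPrime p) (a δ : Qbar) (h : ∀ σ ∈ H, DivIn P δ (σ a - a)) :
    ∃ b : Qbar, (∀ σ ∈ H, σ b = b) ∧ DivIn P δ ((p : Qbar) * (a - b)) := by
  have hT : Cluster P H (orbit H a) a δ :=
    { mem := self_mem_orbit H a
      stable := fun σ hσ s hs => map_mem_orbit hσ hs
      near := by
        intro s hs
        obtain ⟨σ, hσ, rfl⟩ := mem_orbit.mp hs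
        exact (divIn_iff_val_le P δ _).mp (h σ hσ) }
  have hK : (orbit H a).card < p ^ ((orbit H a).card + 1) :=
    (Nat.lt_pow_self hp.one_lt).trans (Nat.pow_lt_pow_right hp.one_lt (Nat.lt_succ_self _))
  obtain ⟨b, hbfix, hb⟩ := hT.exists_fixed hHP hp hp2 hP _ _ _ a δ rfl hK
  refine ⟨b, hbfix, (divIn_iff_val_le P δ _).mpr ?_⟩
  rw [map_mul, mul_comm]
  exact hb.trans (mul_le_of_le_one_right' (val_rho_le_one P hP _))

end Main

/-! ### Equivariant functions -/

section Equivariant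

variable {X : Type*} (act : Γℚ → X → X) (H : Subgroup Γℚ) (hact1 : ∀ x, act 1 x = x)
  (hactmul : ∀ σ ∈ H, ∀ τ ∈ H, ∀ x, act (σ * τ) x = act σ (act τ x))

/-- the stabiliser of `x` in `H` (action axioms are only required for elements of `H`) -/
def stab (x : X) : Subgroup Γℚ where
  carrier := {σ | σ ∈ H ∧ act σ x = x}
  one_mem' := ⟨H.one_mem, hact1 x⟩
  mul_mem' := by
    rintro σ τ ⟨hσ, hσx⟩ ⟨hτ, hτx⟩
    exact ⟨H.mul_mem hσ hτ, by rw [hactmul σ hσ τ hτ, hτx, hσx]⟩
  inv_mem' := by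
    rintro σ ⟨hσ, hσx⟩
    refine ⟨H.inv_mem hσ, ?_⟩
    have h1 : act σ⁻¹ (act σ x) = x := by
      rw [← hactmul σ⁻¹ (H.inv_mem hσ) σ hσ, inv_mul_cancel, hact1]
    rwa [hσx] at h1

include hact1 hactmul in
/-- **Exact equivariant lifts (Ax).**  A function which is `H`-equivariant modulo `c • P` (`c`
fixed by `H`, `H` preserving `P`, `P` over the odd prime `p`) has an EXACTLY `H`-equivariant
companion `f'` with `p • (f' - f) ∈ c • P`. -/
theorem exists_equivariant_of_approx (P : ValuationSubring Qbar)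
    (hHP : ∀ σ ∈ H, ∀ x ∈ P, σ x ∈ P) {p : ℕ} (hp : p.Prime) (hp2 : p ≠ 2)
    (hP : P.LiesOverPrime p) (c : Qbar) (hc : ∀ σ ∈ H, σ c = c)
    (f : X → Qbar) (hf : ∀ σ ∈ H, ∀ x, DivIn P c (f (act σ x) - σ (f x))) :
    ∃ f' : X → Qbar, (∀ σ ∈ H, ∀ x, f' (act σ x) = σ (f' x)) ∧
      ∀ x, DivIn P c ((p : Qbar) * (f' x - f x)) := by
  classical
  -- the orbit relation
  let rel : Setoid X :=
    { r := fun x x' => ∃ σ ∈ H, act σ x = x'
      iseqv :=
        { refl := fun x => ⟨1, H.one_mem, hact1 x⟩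
          symm := by
            rintro x x' ⟨σ, hσ, rfl⟩
            refine ⟨σ⁻¹, H.inv_mem hσ, ?_⟩
            rw [← hactmul σ⁻¹ (H.inv_mem hσ) σ hσ, inv_mul_cancel, hact1]
          trans := by
            rintro x x' x'' ⟨σ, hσ, rfl⟩ ⟨τ, hτ, rfl⟩
            exact ⟨τ * σ, H.mul_mem hτ hσ, hactmul τ hτ σ hσ x⟩ } }
  -- a representative of the orbit of `x` and an element of `H` carrying it to `x`
  let rep : X → X := fun x => (Quotient.mk rel x).out
  have hrep : ∀ x, ∃ σ ∈ H, act σ (rep x) = x := fun x =>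
    Quotient.exact (Quotient.out_eq (Quotient.mk rel x))
  have hrep_act : ∀ σ ∈ H, ∀ x, rep (act σ x) = rep x := by
    intro σ hσ x
    have : Quotient.mk rel (act σ x) = Quotient.mk rel x :=
      Quotient.sound (rel.symm ⟨σ, hσ, rfl⟩)
    show (Quotient.mk rel (act σ x)).out = (Quotient.mk rel x).out
    rw [this]
  choose g hgH hg using hrep
  -- the Ax approximant at the representative
  have hstabP : ∀ x₀ : X, ∀ σ ∈ stab act H hact1 hactmul x₀, ∀ x ∈ P, σ x ∈ P :=
    fun x₀ σ hσ => hHP σ hσ.1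
  have hstab : ∀ x₀ : X, ∀ σ ∈ stab act H hact1 hactmul x₀, DivIn P c (σ (f x₀) - f x₀) := by
    rintro x₀ σ ⟨hσ, hσx⟩
    have := (hf σ hσ x₀).neg
    rwa [neg_sub, hσx] at this
  have hb : ∀ x₀ : X, ∃ b : Qbar, (∀ σ ∈ stab act H hact1 hactmul x₀, σ b = b) ∧
      DivIn P c ((p : Qbar) * (f x₀ - b)) := fun x₀ =>
    ax_lemma P (stab act H hact1 hactmul x₀) (hstabP x₀) hp hp2 hP (f x₀) c (hstab x₀)
  choose b hbfix hbr using hb
  refine ⟨fun x => g x (b (rep x)), ?_, ?_⟩
  · -- exact equivariance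
    intro σ hσ x
    show g (act σ x) (b (rep (act σ x))) = σ (g x (b (rep x)))
    rw [hrep_act σ hσ x]
    -- `(σ * g x)⁻¹ * g (act σ x)` stabilises `rep x`
    have hσg : σ * g x ∈ H := H.mul_mem hσ (hgH x)
    have hmem : (σ * g x)⁻¹ * g (act σ x) ∈ stab act H hact1 hactmul (rep x) := by
      refine ⟨H.mul_mem (H.inv_mem hσg) (hgH (act σ x)), ?_⟩
      have h1 : act (g (act σ x)) (rep x) = act σ x := by
        have := hg (act σ x)
        rwa [hrep_act σ hσ x] at this
      have h2 : act (σ * g x) (rep x) = act σ x := by rw [hactmul σ hσ (g x) (hgH x), hg x]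
      rw [hactmul _ (H.inv_mem hσg) _ (hgH (act σ x)), h1, ← h2,
        ← hactmul _ (H.inv_mem hσg) _ hσg, inv_mul_cancel, hact1]
    have h3 := hbfix (rep x) _ hmem
    have h4 : ((σ * g x)⁻¹ * g (act σ x)) (b (rep x))
        = (σ * g x)⁻¹ (g (act σ x) (b (rep x))) := rfl
    rw [h4] at h3
    have h5 := congrArg (σ * g x) h3
    have h6 : (σ * g x) ((σ * g x)⁻¹ (g (act σ x) (b (rep x)))) = g (act σ x) (b (rep x)) := by
      show ((σ * g x) * (σ * g x)⁻¹) _ = _
      rw [mul_inv_cancel]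
      rfl
    rw [h6] at h5
    rw [h5]
    rfl
  · -- the approximation
    intro x
    show DivIn P c ((p : Qbar) * (g x (b (rep x)) - f x))
    have h1 : DivIn P c (g x ((p : Qbar) * (f (rep x) - b (rep x)))) :=
      (hbr (rep x)).map (hHP (g x) (hgH x)) (hc (g x) (hgH x))
    rw [map_mul, map_natCast, map_sub] at h1
    have h2 : DivIn P c (f (act (g x) (rep x)) - g x (f (rep x))) := hf (g x) (hgH x) (rep x)
    rw [hg x] at h2
    have h3 := (h1.add (h2.mul_left (natCast_mem P p))).neg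
    have e : -((p : Qbar) * (g x (f (rep x)) - g x (b (rep x)))
        + (p : Qbar) * (f x - g x (f (rep x))))
        = (p : Qbar) * (g x (b (rep x)) - f x) := by ring
    rwa [e] at h3

end Equivariant

/-! ### The inertia group -/

section Inertia

variable (P : ValuationSubring Qbar)

/-- the inertia group preserves `P` -/
theorem map_mem_of_mem_inertia {σ : Γℚ} (hσ : σ ∈ P.inertiaSubgroupIn ℚ) {x : Qbar}
    (hx : x ∈ P) : σ x ∈ P := by
  obtain ⟨τ, -, rfl⟩ := Subgroup.mem_map.mp hσ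
  have h1 : (τ : Γℚ) • P = P := τ.2
  have h2 : (τ : Γℚ) • x ∈ (τ : Γℚ) • P := ValuationSubring.smul_mem_pointwise_smul _ _ _ hx
  rw [h1] at h2
  exact h2

/-- cancel one `p`: `p • a ∈ p ^ n • P` gives `a ∈ p ^ (n - 1) • P` -/
theorem divIn_pow_pred {p : ℕ} (hp : p.Prime) {n : ℕ} (hn : 0 < n) {a : Qbar}
    (h : DivIn P ((p : Qbar) ^ n) ((p : Qbar) * a)) : DivIn P ((p : Qbar) ^ (n - 1)) a := by
  obtain ⟨w, hw, hw'⟩ := h
  refine ⟨w, hw, ?_⟩
  have hp0 : (p : Qbar) ≠ 0 := Nat.cast_ne_zero.mpr hp.ne_zero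
  obtain ⟨n, rfl⟩ : ∃ n', n = n' + 1 := ⟨n - 1, by omega⟩
  rw [pow_succ', mul_assoc] at hw'
  rw [Nat.add_sub_cancel]
  exact mul_left_cancel₀ hp0 hw'

theorem mem_of_divIn_sub {k p : ℕ} {a b : Qbar} (hb : b ∈ P)
    (h : DivIn P ((p : Qbar) ^ k) (a - b)) : a ∈ P := by
  obtain ⟨w, hw, hw'⟩ := h
  have : a = b + (p : Qbar) ^ k * w := by rw [← hw']; ring
  rw [this]
  exact P.add_mem _ _ hb (P.mul_mem _ _ (P.pow_mem (natCast_mem P p) k) hw)

variable {X : Type*} (act : Γℚ → X → X) (hact1 : ∀ x, act 1 x = x)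
  (hactmul : ∀ σ ∈ P.inertiaSubgroupIn ℚ, ∀ τ ∈ P.inertiaSubgroupIn ℚ, ∀ x,
    act (σ * τ) x = act σ (act τ x))

include hact1 hactmul in
/-- **Exact inertia-equivariant lifts at an odd prime, loss one.**  `P` over the odd prime `p`,
`n ≥ 1`; a `P`-valued function `t` which is inertia-equivariant modulo `p ^ n • P` is congruent
modulo `p ^ (n - 1) • P` to an EXACTLY inertia-equivariant `P`-valued function.  The action axioms
are only required for elements of the inertia group. -/
theorem exists_inertia_equivariant_of_approx {p : ℕ} (hp : p.Prime) (hp2 : p ≠ 2)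
    (hP : P.LiesOverPrime p) {n : ℕ} (hn : 0 < n) (t : X → Qbar) (htP : ∀ x, t x ∈ P)
    (ht : ∀ σ ∈ P.inertiaSubgroupIn ℚ, ∀ x,
      ∃ w ∈ P, t (act σ x) - σ (t x) = (p : Qbar) ^ n * w) :
    ∃ t' : X → Qbar, (∀ σ ∈ P.inertiaSubgroupIn ℚ, ∀ x, t' (act σ x) = σ (t' x)) ∧
      (∀ x, t' x ∈ P) ∧ ∀ x, ∃ w ∈ P, t' x - t x = (p : Qbar) ^ (n - 1) * w := by
  obtain ⟨t', ht'eq, ht'ap⟩ := exists_equivariant_of_approx act (P.inertiaSubgroupIn ℚ) hact1
    hactmul P (fun σ hσ x hx => map_mem_of_mem_inertia P hσ hx) hp hp2 hP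
    ((p : Qbar) ^ n) (fun σ _ => by rw [map_pow, map_natCast]) t ht
  have key : ∀ x, DivIn P ((p : Qbar) ^ (n - 1)) (t' x - t x) := fun x =>
    divIn_pow_pred P hp hn (ht'ap x)
  exact ⟨t', ht'eq, fun x => mem_of_divIn_sub P (htP x) (key x), key⟩

include hact1 hactmul in
/-- the same for a family of coordinate functions `c : X → ι → Qbar` -/
theorem exists_inertia_equivariant_of_approx_family {ι : Type*} {p : ℕ} (hp : p.Prime)
    (hp2 : p ≠ 2) (hP : P.LiesOverPrime p) {n : ℕ} (hn : 0 < n) (c : X → ι → Qbar)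
    (hcP : ∀ x i, c x i ∈ P)
    (hc : ∀ σ ∈ P.inertiaSubgroupIn ℚ, ∀ x i,
      ∃ w ∈ P, c (act σ x) i - σ (c x i) = (p : Qbar) ^ n * w) :
    ∃ c' : X → ι → Qbar, (∀ σ ∈ P.inertiaSubgroupIn ℚ, ∀ x i, c' (act σ x) i = σ (c' x i)) ∧
      (∀ x i, c' x i ∈ P) ∧ ∀ x i, ∃ w ∈ P, c' x i - c x i = (p : Qbar) ^ (n - 1) * w := by
  have h : ∀ i : ι, ∃ t' : X → Qbar,
      (∀ σ ∈ P.inertiaSubgroupIn ℚ, ∀ x, t' (act σ x) = σ (t' x)) ∧
      (∀ x, t' x ∈ P) ∧ ∀ x, ∃ w ∈ P, t' x - c x i = (p : Qbar) ^ (n - 1) * w := fun i =>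
    exists_inertia_equivariant_of_approx P act hact1 hactmul hp hp2 hP hn (fun x => c x i)
      (fun x => hcP x i) (fun σ hσ x => hc σ hσ x i)
  choose t' h1 h2 h3 using h
  exact ⟨fun x i => t' i x, fun σ hσ x i => h1 i σ hσ x, fun x i => h2 i x, fun x i => h3 i x⟩

end Inertia

end Fermat.Agent.S33x.Ax.AxSecond
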