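/-
P-S33 (L3-a), adapter (helper57): Ax's lemma in the vocabulary of `Iface/ApproxChart`
(`PowMem P p n x := ∃ w ∈ P, x = p ^ n * w`).

* `exists_exact_lift` : `P`-valued coordinates which are inertia-equivariant modulo `p ^ n P` are
  congruent modulo `p ^ (n - 1) P` to EXACTLY inertia-equivariant `P`-valued coordinates
  (action axioms for the inertia group only, `X` any type).
* `exists_exact_of_chart` : the same for an `ApproxChart` of level `n + 1`; the new coordinates
  stay in the maximal ideal when `n ≠ 0`.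
* `sepAt_transfer`, `powMem_aeval_sub` : separation and polynomial congruences pass to the
  corrected coordinates.
-/
import Mathlib
import Fermat.Agent.S33x.Ax.EqvLift
import Fermat.Agent.S33x.Iface.ApproxChart

set_option autoImplicit false

namespace Fermat.Agent.S33x.Ax.ChartLift

open Fermat.Agent.S33x.Ax Fermat.Agent.S33x.Iface Fermat.Agent.S56x.Flat.InertiaField

local notation "Qbar" => AlgebraicClosure ℚ
local notation "Γℚ" => (AlgebraicClosure ℚ ≃ₐ[ℚ] AlgebraicClosure ℚ)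

section PowMem

variable {P : ValuationSubring Qbar} {p : ℕ}

theorem powMem_add {n : ℕ} {x y : Qbar} (hx : PowMem P p n x) (hy : PowMem P p n y) :
    PowMem P p n (x + y) := by
  obtain ⟨w, hw, rfl⟩ := hx
  obtain ⟨w', hw', rfl⟩ := hy
  exact ⟨w + w', P.add_mem _ _ hw hw', by ring⟩

theorem powMem_neg {n : ℕ} {x : Qbar} (hx : PowMem P p n x) : PowMem P p n (-x) := by
  obtain ⟨w, hw, rfl⟩ := hx
  exact ⟨-w, P.neg_mem _ hw, by ring⟩

theorem powMem_sub {n : ℕ} {x y : Qbar} (hx : PowMem P p n x) (hy : PowMem P p n y) :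
    PowMem P p n (x - y) := by
  rw [sub_eq_add_neg]
  exact powMem_add hx (powMem_neg hy)

theorem powMem_zero {n : ℕ} : PowMem P p n 0 := ⟨0, P.zero_mem, by ring⟩

theorem powMem_mul_right {n : ℕ} {x y : Qbar} (hx : PowMem P p n x) (hy : y ∈ P) :
    PowMem P p n (x * y) := by
  obtain ⟨w, hw, rfl⟩ := hx
  exact ⟨w * y, P.mul_mem _ _ hw hy, by ring⟩

theorem powMem_mul_left {n : ℕ} {x y : Qbar} (hx : x ∈ P) (hy : PowMem P p n y) :
    PowMem P p n (x * y) := by
  rw [mul_comm]
  exact powMem_mul_right hy hx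

theorem powMem_mono {m n : ℕ} (hmn : m ≤ n) {x : Qbar} (hx : PowMem P p n x) :
    PowMem P p m x := by
  obtain ⟨w, hw, rfl⟩ := hx
  refine ⟨(p : Qbar) ^ (n - m) * w, P.mul_mem _ _ (P.pow_mem (natCast_mem P p) _) hw, ?_⟩
  rw [← mul_assoc, ← pow_add, Nat.add_sub_cancel' hmn]

theorem powMem_zero_iff {x : Qbar} : PowMem P p 0 x ↔ x ∈ P := by
  constructor
  · rintro ⟨w, hw, rfl⟩
    rwa [pow_zero, one_mul]
  · intro hx
    exact ⟨x, hx, by rw [pow_zero, one_mul]⟩

theorem mem_of_powMem {n : ℕ} {x : Qbar} (hx : PowMem P p n x) : x ∈ P :=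
  powMem_zero_iff.mp (powMem_mono (Nat.zero_le n) hx)

/-- polynomial congruence: polynomials over `O^ur` preserve congruences modulo `p ^ n P` between
`P`-valued points. -/
theorem powMem_aeval_sub {ι : Type*} {n : ℕ} (F : MvPolynomial ι (inertiaInt P))
    (a a' : ι → Qbar) (ha : ∀ s, a s ∈ P) (ha' : ∀ s, a' s ∈ P)
    (h : ∀ s, PowMem P p n (a s - a' s)) :
    MvPolynomial.aeval a' F ∈ P ∧
      PowMem P p n (MvPolynomial.aeval a F - MvPolynomial.aeval a' F) := by
  induction F using MvPolynomial.induction_on with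
  | C r =>
    refine ⟨?_, ?_⟩
    · rw [MvPolynomial.aeval_C]
      exact r.2.1
    · rw [MvPolynomial.aeval_C, MvPolynomial.aeval_C, sub_self]
      exact powMem_zero
  | add F G hF hG =>
    refine ⟨?_, ?_⟩
    · rw [map_add]
      exact P.add_mem _ _ hF.1 hG.1
    · rw [map_add, map_add, add_sub_add_comm]
      exact powMem_add hF.2 hG.2
  | mul_X F s hF =>
    refine ⟨?_, ?_⟩
    · rw [map_mul, MvPolynomial.aeval_X]
      exact P.mul_mem _ _ hF.1 (ha' s)
    · rw [map_mul, map_mul, MvPolynomial.aeval_X, MvPolynomial.aeval_X]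
      have : MvPolynomial.aeval a F * a s - MvPolynomial.aeval a' F * a' s =
          (MvPolynomial.aeval a F - MvPolynomial.aeval a' F) * a s +
            MvPolynomial.aeval a' F * (a s - a' s) := by ring
      rw [this]
      exact powMem_add (powMem_mul_right hF.2 (ha s)) (powMem_mul_left hF.1 (h s))

end PowMem

section Lift

variable (P : ValuationSubring Qbar) {p : ℕ} (hp : p.Prime) (hp2 : p ≠ 2)
  (hP : P.LiesOverPrime p)
include hp hp2 hP

/-- **(L3-a), statement form.**  `P`-valued coordinates, inertia-equivariant modulo `p ^ n P`, are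
congruent modulo `p ^ (n - 1) P` to exactly inertia-equivariant `P`-valued coordinates. -/
theorem exists_exact_lift {X : Type*} (act : Γℚ → X → X) (hone : ∀ x, act 1 x = x)
    (hmul : ∀ σ ∈ P.inertiaSubgroupIn ℚ, ∀ τ ∈ P.inertiaSubgroupIn ℚ, ∀ x,
      act (σ * τ) x = act σ (act τ x))
    (g n : ℕ) (c : X → Fin g → Qbar) (hcP : ∀ x i, c x i ∈ P)
    (hc : ∀ σ ∈ P.inertiaSubgroupIn ℚ, ∀ x i, PowMem P p n (c (act σ x) i - σ (c x i))) :
    ∃ c' : X → Fin g → Qbar,
      (∀ σ ∈ P.inertiaSubgroupIn ℚ, ∀ x i, c' (act σ x) i = σ (c' x i)) ∧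
      (∀ x i, c' x i ∈ P) ∧ ∀ x i, PowMem P p (n - 1) (c' x i - c x i) := by
  rcases n with _ | n
  · refine ⟨fun _ _ => 0, fun σ _ x i => (map_zero σ).symm, fun _ _ => P.zero_mem, fun x i => ?_⟩
    rw [zero_sub]
    exact powMem_zero_iff.mpr (P.neg_mem _ (hcP x i))
  · obtain ⟨c', h1, h2⟩ := exists_equivariant_coord P hp hp2 hP act hone hmul c n hc
    refine ⟨c', h1, fun x i => ?_, fun x i => h2 x i⟩
    have h3 : c' x i = c x i + (c' x i - c x i) := by ring
    rw [h3]
    exact P.add_mem _ _ (hcP x i) (mem_of_powMem (h2 x i))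

/-- **(L3-a) for a chart of level `n + 1`.** -/
theorem exists_exact_of_chart {X : Type} [AddCommGroup X] (act : Γℚ → X → X)
    (hone : ∀ x, act 1 x = x)
    (hmul : ∀ σ ∈ P.inertiaSubgroupIn ℚ, ∀ τ ∈ P.inertiaSubgroupIn ℚ, ∀ x,
      act (σ * τ) x = act σ (act τ x))
    {n : ℕ} (C : ApproxChart p P X act (n + 1)) :
    ∃ u : X → Fin C.g → Qbar,
      (∀ σ ∈ P.inertiaSubgroupIn ℚ, ∀ x i, u (act σ x) i = σ (u x i)) ∧
      (∀ x i, PowMem P p n (u x i - C.coord x i)) ∧
      (∀ x i, u x i ∈ P) ∧ (n ≠ 0 → ∀ x i, u x i ∈ P.nonunits) := by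
  have hcP : ∀ x i, C.coord x i ∈ P := fun x i =>
    (P.mem_nonunits_iff_exists_mem_maximalIdeal.mp (C.coord_mem x i)).1
  obtain ⟨u, h1, h2, h3⟩ := exists_exact_lift P hp hp2 hP act hone hmul C.g (n + 1) C.coord hcP
    C.coord_inertia
  rw [Nat.add_sub_cancel] at h3
  refine ⟨u, h1, h3, h2, fun hn x i => ?_⟩
  obtain ⟨w, hw, h⟩ := h3 x i
  exact mem_nonunits_of_sub_eq P hP hn (C.coord_mem x i) hw h

end Lift

section Transfer

variable {P : ValuationSubring Qbar} {p : ℕ}

/-- separation at precision `c0 ≤ n` passes to coordinates congruent modulo `p ^ n P`. -/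
theorem sepAt_transfer {X : Type*} {g c0 n : ℕ} (hc0 : c0 ≤ n) (c u : X → Fin g → Qbar)
    (hu : ∀ x i, PowMem P p n (u x i - c x i))
    (hsep : ∀ x y : X, x ≠ y → ∃ i, ¬ PowMem P p c0 (c x i - c y i)) :
    ∀ x y : X, x ≠ y → ∃ i, ¬ PowMem P p c0 (u x i - u y i) := by
  intro x y hxy
  obtain ⟨i, hi⟩ := hsep x y hxy
  refine ⟨i, fun h => hi ?_⟩
  have h1 : c x i - c y i = (u x i - u y i) - ((u x i - c x i) - (u y i - c y i)) := by ring
  rw [h1]
  exact powMem_sub h (powMem_mono hc0 (powMem_sub (hu x i) (hu y i)))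

/-- the group law modulo `p ^ n P` passes to coordinates congruent modulo `p ^ n P`. -/
theorem law_transfer {X : Type*} [Add X] {g n : ℕ} (c u : X → Fin g → Qbar)
    (hcP : ∀ x i, c x i ∈ P) (huP : ∀ x i, u x i ∈ P)
    (hu : ∀ x i, PowMem P p n (u x i - c x i))
    (F : Fin g → MvPolynomial (Fin g ⊕ Fin g) (inertiaInt P))
    (hF : ∀ x y i, PowMem P p n
      (c (x + y) i - MvPolynomial.aeval (Sum.elim (c x) (c y)) (F i))) :
    ∀ x y i, PowMem P p n
      (u (x + y) i - MvPolynomial.aeval (Sum.elim (u x) (u y)) (F i)) := by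
  intro x y i
  have h1 := (powMem_aeval_sub (P := P) (p := p) (n := n) (F i) (Sum.elim (u x) (u y))
    (Sum.elim (c x) (c y)) (by rintro (s | s) <;> simp [huP])
    (by rintro (s | s) <;> simp [hcP])
    (by rintro (s | s) <;> simp [hu])).2
  have h2 : u (x + y) i - MvPolynomial.aeval (Sum.elim (u x) (u y)) (F i) =
      (u (x + y) i - c (x + y) i) +
        (c (x + y) i - MvPolynomial.aeval (Sum.elim (c x) (c y)) (F i)) -
        (MvPolynomial.aeval (Sum.elim (u x) (u y)) (F i) -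
          MvPolynomial.aeval (Sum.elim (c x) (c y)) (F i)) := by ring
  rw [h2]
  exact powMem_sub (powMem_add (hu _ i) (hF x y i)) h1

end Transfer

end Fermat.Agent.S33x.Ax.ChartLift
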