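/-
P-S33 (L3, closing plug; helper57): `AxLift p P` (hypothesis of helper22's landed
`L3/NoTrivOfCharts.lean`) from Ax's lemma (`Ax/EqvLift.exists_equivariant_approx_pow`), hence the
CLOSED Layer-3 output `Iface.NoTrivOfCharts`.
-/
import Mathlib
import Fermat.Agent.S33x.Ax.EqvLift
import Fermat.Agent.S33x.L3.NoTrivOfCharts

set_option autoImplicit false

namespace Fermat.Agent.S33x.Ax.NoTrivFinal

open Fermat.Agent.S33x.Ax Fermat.Agent.S33x.Iface Fermat.Agent.S33x.L3.NoTrivOfCharts

local notation "Qbar" => AlgebraicClosure ℚ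
local notation "Γℚ" => (AlgebraicClosure ℚ ≃ₐ[ℚ] AlgebraicClosure ℚ)

/-- **(L3-a)** in the literal shape asked by `L3/NoTrivOfCharts`. -/
theorem axLift {p : ℕ} (hp : p.Prime) (hp2 : p ≠ 2) (P : ValuationSubring Qbar)
    (hP : P.LiesOverPrime p) : AxLift p P := by
  intro X _ act h1 hmul t n _ ht
  exact exists_equivariant_approx_pow (preserves_inertia P) hp hp2 hP act h1 hmul t n
    (fun σ hσ x => ht σ hσ x)

/-- **Layer 3 of the S33 blueprint, closed**: approximate charts at every level, separating at one
fixed precision, exclude subquotients with trivial inertia action. -/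
theorem noTrivOfCharts : NoTrivOfCharts :=
  noTrivOfCharts_of_axLift (fun _ hp hp2 P hP => axLift hp hp2 P hP)

end Fermat.Agent.S33x.Ax.NoTrivFinal
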